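/-
helper14 (P-ES / S31): interfaces for the Jacobian side of S31.

`Fermat.Agent.H14.s31_of_core` (landed) reduces the frozen S31 to
`HeckeTorsionCoreStatement p N S`.  The core is built (module `S31JTorsion`) from the P-ES torsion
package for the prelude operators `heckeOperatorBar N ℓ` on `J₀(N)[p ^ n]`:

* `Fermat.Agent.H22.ES.TorsionUnramifiedStatement N`   (row Q-U),
* `Fermat.Agent.H36.HeckeGaloisTorsionStatement N`     (row Q-ES-3),
* `Fermat.Agent.H36.EichlerShimuraRelStatement N`      (row Q-ES-4),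

and the four statements of this file:

* `TorsionLevelStatement N`     : `J₀(N)[m]` has finite level;
* `KummerEmbeddingStatement N`  : the Hecke-equivariant Kummer embedding `Λ / m Λ → J₀(N)[m]`,
  `Λ = Hom_par(Γ₀(N), ℤ)` (general-`m` form of the bridge of row Q-EIG);
* `CohFaithfulStatement`        : the Hecke algebra acts faithfully on `Λ` (period map);
* `LatticeBoundStatement`       : pure algebra (saturation of the Hecke ring of a lattice).
-/
import Fermat.Agent.H14.S31CoreInterface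
import Fermat.Agent.H21.Coh.Hecke
import Fermat.Agent.H36.ESE.TorsionInterfaces

set_option autoImplicit false

namespace Fermat.Agent.H14

open CongruenceSubgroup ModularCurve ModularCurve.Period

/-- The lattice `Λ = Hom_par(Γ₀(N), ℤ)` of integral parabolic classes. -/
abbrev S31Lat (N : ℕ) : Type := ↥(parabolicHoms ℤ (Gamma0 N) ℤ)

/-- **Finite level** of the torsion of `J₀(N)`: the points killed by `m` are fixed by the
Galois group of a number field. -/
def TorsionLevelStatement (N : ℕ) [NeZero N] : Prop :=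
  ∀ m : ℕ, 0 < m → ∃ L : IntermediateField ℚ (AlgebraicClosure ℚ), FiniteDimensional ℚ L ∧
    ∀ σ : S31GQ, (∀ x ∈ L, σ x = x) → ∀ x : JZero N, m • x = 0 → σ • x = x

/-- **Kummer embedding** (bridge): for every `m > 0` there is an additive map
`κ : Λ → J₀(N)[m]` with kernel `m Λ`, intertwining the cohomological Hecke operator `cohT` with
the prelude Hecke operator `heckeOperatorBar` at every prime `ℓ ∤ N`.
(Over `ℂ`: `ψ ↦` the class with Kummer character `γ ↦ exp (2 π i ψ(γ) / m)`.) -/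
def KummerEmbeddingStatement (N : ℕ) [NeZero N] : Prop :=
  ∀ m : ℕ, 0 < m → ∃ κ : S31Lat N →+ JZero N,
    (∀ ψ : S31Lat N, m • κ ψ = 0) ∧
    (∀ ψ : S31Lat N, κ ψ = 0 → ∃ ψ' : S31Lat N, ψ = m • ψ') ∧
    (∀ (ℓ : ℕ) (hℓ : ℓ.Prime) (hℓN : ¬ ℓ ∣ N) (ψ ψ' : S31Lat N),
      (ψ' : Additive ↥(Gamma0 N) →+ ℤ)
          = Fermat.Agent.H21.cohT N ℓ hℓ hℓN ℤ (ψ : Additive ↥(Gamma0 N) →+ ℤ) →
        κ ψ' = heckeOperatorBar N ⟨ℓ, hℓ⟩ (κ ψ))

/-- **Faithfulness on the lattice**: a Hecke polynomial acting as zero on `Λ`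
(`X_ℓ ↦ cohT` at the good primes, `X_ℓ ↦ 0` at the others) evaluates to zero in the
Hecke algebra. -/
def CohFaithfulStatement (N : ℕ) [NeZero N] (S : Finset ℕ) : Prop :=
  ∀ evH : HeckeAlg →+* Module.End ℤ (S31Lat N),
    (∀ (ℓ : ℕ) (hℓ : ℓ.Prime) (hℓN : ¬ ℓ ∣ N), ℓ ∉ (↑S : Set ℕ) → ∀ ψ : S31Lat N,
      ((evH (heckeGen ⟨ℓ, hℓ⟩) ψ : S31Lat N) : Additive ↥(Gamma0 N) →+ ℤ)
        = Fermat.Agent.H21.cohT N ℓ hℓ hℓN ℤ (ψ : Additive ↥(Gamma0 N) →+ ℤ)) →
    (∀ (ℓ : ℕ) (hℓ : ℓ.Prime), ¬ (¬ ℓ ∣ N ∧ ℓ ∉ (↑S : Set ℕ)) → evH (heckeGen ⟨ℓ, hℓ⟩) = 0) →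
    ∀ Q : HeckeAlg, evH Q = 0 → MvPolynomial.aeval (s31HeckeVal N S) Q = 0

/-- **Lattice bound** (pure algebra).  `H` a finitely generated free `ℤ`-module on which the
commutative ring `R` acts; `𝕋` a torsion-free commutative ring with `ev : R → 𝕋` such that
elements acting as zero on `H` evaluate to zero.  Then for every prime `p` and every `c` there
is `n` such that `P H ⊆ p ^ n H` implies `ev P ∈ p ^ c 𝕋`. -/
def LatticeBoundStatement : Prop :=
  ∀ (R : Type) [CommRing R] (H : Type) [AddCommGroup H] [Module.Finite ℤ H] [Module.Free ℤ H]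
    (𝕋 : Type) [CommRing 𝕋] [IsAddTorsionFree 𝕋]
    (evH : R →+* Module.End ℤ H) (ev : R →+* 𝕋),
    (∀ Q : R, evH Q = 0 → ev Q = 0) →
    ∀ (p : ℕ), p.Prime → ∀ c : ℕ,
      ∃ n : ℕ, ∀ P : R, (∀ h : H, ∃ h' : H, evH P h = (p ^ n) • h') →
        ∃ t : 𝕋, ev P = (p : 𝕋) ^ c * t

end Fermat.Agent.H14
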