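/-
helper14 (P-ES / S31): final wiring of S31 and S34.  All unconditional inputs that are on main
are plugged in; the remaining hypotheses are exactly the still-open statements of P-ES:

* `Fermat.Agent.H22.ES.KeyLemmaAllStatement`        (KL, row 362),
* `Fermat.Agent.H36.NormSeriesStatement N`          (Q-ES-1, row 378),
* `Fermat.Agent.H14.KummerEmbeddingStatement N`     (S31-KUM, row 410),
and for S34 in addition `Fermat.Agent.H14.UnipotentTorsionStatement N` (P-SS).
-/
import Fermat.Agent.H14.S34JCore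
import Fermat.Agent.H72.FDT.Main
import Fermat.Agent.H79.TorsionUnramified
import Fermat.Agent.H79.CohFaithful
import Fermat.Agent.H66.ESD.GaussNorm
import Fermat.Agent.H49.ES.GalHecke
import Fermat.Agent.H49.ES.EsCAdapters
import Fermat.Agent.H36.ESE.TorsionES
import Fermat.Agent.H89.QES2
import Fermat.Agent.H53.ES.OpenStabAdapters
import Fermat.Agent.H29.ESB.Descent
import Fermat.Agent.H48.S31.LatticeBound

set_option autoImplicit false

namespace Fermat.Agent.H14

open ModularCurve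

section Inputs

variable (N : ℕ) [NeZero N]

/-- Q-U, from the key lemma. -/
theorem s31w_unramified (hKL : Fermat.Agent.H22.ES.KeyLemmaAllStatement) :
    Fermat.Agent.H22.ES.TorsionUnramifiedStatement N :=
  Fermat.Agent.H79.torsionUnramified hKL (fun M _ => Fermat.Agent.H66.gaussNormalForm M) N

/-- Q-ES-4, from the key lemma and the norm series. -/
theorem s31w_eichlerShimura (hKL : Fermat.Agent.H22.ES.KeyLemmaAllStatement)
    (hNS : Fermat.Agent.H36.NormSeriesStatement N) :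
    Fermat.Agent.H36.EichlerShimuraRelStatement N :=
  Fermat.Agent.H36.eichlerShimuraRel_of_keyLemma N (fun ℓ hℓ hℓN => hKL N ℓ hℓ hℓN)
    (Fermat.Agent.H66.gaussNormalForm N) (Fermat.Agent.H89.normCongruence_of_normSeries N hNS)
    (fun ℓ _ hℓ _ => Fermat.Agent.H49.heckeInputsAlong_qbar N ℓ hℓ)

/-- S31-LEVEL, unconditional. -/
theorem s31w_level : TorsionLevelStatement N :=
  Fermat.Agent.H53.torsionLevelStatement_of_descent N (Fermat.Agent.H29.descentStatement N)

end Inputs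

variable {p : ℕ} {N : ℕ} [NeZero N] {S : Finset ℕ}

/-- **S31**, modulo the key lemma, the norm series and the Kummer embedding. -/
theorem s31_wired (hKL : Fermat.Agent.H22.ES.KeyLemmaAllStatement)
    (hNSer : Fermat.Agent.H36.NormSeriesStatement N)
    (hK : KummerEmbeddingStatement N)
    {𝒪 : Type} [CommRing 𝒪] [IsDomain 𝒪] [IsDiscreteValuationRing 𝒪]
    [IsAdicComplete (IsLocalRing.maximalIdeal 𝒪) 𝒪]
    {θ : CuspForm.heckeAlgebra N 2 (↑S : Set ℕ) →+* IsLocalRing.ResidueField 𝒪}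
    {T : Type} [CommRing T] [IsLocalRing T] [IsNoetherianRing T]
    [IsAdicComplete (IsLocalRing.maximalIdeal T) T] [Algebra 𝒪 T] [IsLocalHom (algebraMap 𝒪 T)]
    [Module.Finite 𝒪 T] [Module.Free 𝒪 T]
    (hp : p.Prime)
    (hp𝒪 : (p : 𝒪) ∈ IsLocalRing.maximalIdeal 𝒪) (hpS : p ∈ S)
    (hNS : ∀ q : ℕ, q.Prime → q ∣ N → q ∈ S)
    (H : CuspForm.HeckeGaloisRepDatum N (↑S : Set ℕ) 𝒪 θ T)
    (q : ℕ) (hq : q.Prime) (hqS : q ∉ S) :
    H.ρ.IsUnramifiedAt q :=
  s31_of_torsion Fermat.Agent.H72.frobPow (s31w_unramified N hKL)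
    (Fermat.Agent.H49.heckeGaloisTorsionStatement N) (s31w_eichlerShimura N hKL hNSer)
    (s31w_level N) hK (Fermat.Agent.H79.cohFaithful N S) Fermat.Agent.H48.Lat.latticeBound
    hp hp𝒪 hpS hNS H q hq hqS

/-- **S34**, modulo the key lemma, the norm series, the Kummer embedding and unipotent inertia
on torsion. -/
theorem s34_wired (hKL : Fermat.Agent.H22.ES.KeyLemmaAllStatement)
    (hNSer : Fermat.Agent.H36.NormSeriesStatement N)
    (hK : KummerEmbeddingStatement N) (hUT : UnipotentTorsionStatement N)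
    {𝒪 : Type} [CommRing 𝒪] [IsDomain 𝒪] [IsDiscreteValuationRing 𝒪]
    [IsAdicComplete (IsLocalRing.maximalIdeal 𝒪) 𝒪]
    (hp : p.Prime) (hp𝒪 : (p : 𝒪) ∈ IsLocalRing.maximalIdeal 𝒪)
    (hpS : p ∈ S) (hNS : ∀ q : ℕ, q.Prime → q ∣ N → q ∈ S)
    {θ : CuspForm.heckeAlgebra N 2 (↑S : Set ℕ) →+* IsLocalRing.ResidueField 𝒪}
    {T : Type} [CommRing T] [IsLocalRing T] [IsNoetherianRing T]
    [IsAdicComplete (IsLocalRing.maximalIdeal T) T] [Algebra 𝒪 T] [IsLocalHom (algebraMap 𝒪 T)]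
    [Module.Finite 𝒪 T] [Module.Free 𝒪 T]
    (H : CuspForm.HeckeGaloisRepDatum N (↑S : Set ℕ) 𝒪 θ T)
    (q : ℕ) (hq : q.Prime) (hqp : q ≠ p) (hqN : q ∣ N) (hq2 : ¬ q ^ 2 ∣ N) :
    H.ρ.IsUnipotentOnInertiaAt q :=
  s34_of_torsion Fermat.Agent.H72.frobPow (s31w_unramified N hKL)
    (Fermat.Agent.H49.heckeGaloisTorsionStatement N) (s31w_eichlerShimura N hKL hNSer)
    (s31w_level N) hK (Fermat.Agent.H79.cohFaithful N S) Fermat.Agent.H48.Lat.latticeBound hUT
    hp hp𝒪 hpS hNS H q hq hqp hqN hq2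

end Fermat.Agent.H14
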