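/-
helper14 (P-ES / S31): S31 and S34 modulo the KEY LEMMA only.

All other inputs are unconditional theorems on main; the only remaining hypothesis of
`s31_of_keyLemma` is `Fermat.Agent.H22.ES.KeyLemmaAllStatement` (KL, row 362), and
`s34_of_keyLemma` needs in addition `Fermat.Agent.H14.UnipotentTorsionStatement N` (P-SS).
-/
import Fermat.Agent.H14.S31Wire
import Fermat.Agent.H34.S31Kum.Main
import Fermat.Agent.H21.EsC.QEigFinal
import Fermat.Agent.H94.QEig.Unconditional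
import Fermat.Agent.H36.ESE.TorsionFinal

set_option autoImplicit false

namespace Fermat.Agent.H14

open ModularCurve

/-- S31-KUM, unconditional. -/
theorem s31w_kummerEmbedding (N : ℕ) [NeZero N] : KummerEmbeddingStatement N :=
  Fermat.Agent.H34.kummerEmbedding N (Fermat.Agent.H21.EsC.kummerHecke N)
    (Fermat.Agent.H94.QEig.heckeDescent N)

variable {p : ℕ} {N : ℕ} [NeZero N] {S : Finset ℕ}

/-- **S31**, modulo the key lemma. -/
theorem s31_of_keyLemma (hKL : Fermat.Agent.H22.ES.KeyLemmaAllStatement)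
    {𝒪 : Type} [CommRing 𝒪] [IsDomain 𝒪] [IsDiscreteValuationRing 𝒪]
    [IsAdicComplete (IsLocalRing.maximalIdeal 𝒪) 𝒪]
    {θ : CuspForm.heckeAlgebra N 2 (↑S : Set ℕ) →+* IsLocalRing.ResidueField 𝒪}
    {T : Type} [CommRing T] [IsLocalRing T] [IsNoetherianRing T]
    [IsAdicComplete (IsLocalRing.maximalIdeal T) T] [Algebra 𝒪 T] [IsLocalHom (algebraMap 𝒪 T)]
    [Module.Finite 𝒪 T] [Module.Free 𝒪 T]
    (hp : p.Prime)
    (hp𝒪 : (p : 𝒪) ∈ IsLocalRing.maximalIdeal 𝒪) (hpS : p ∈ S)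
    (hNS : ∀ q : ℕ, q.Prime → q ∣ N → q ∈ S)
    (H : CuspForm.HeckeGaloisRepDatum N (↑S : Set ℕ) 𝒪 θ T)
    (q : ℕ) (hq : q.Prime) (hqS : q ∉ S) :
    H.ρ.IsUnramifiedAt q :=
  s31_of_torsion Fermat.Agent.H72.frobPow (s31w_unramified N hKL)
    (Fermat.Agent.H49.heckeGaloisTorsionStatement N)
    (Fermat.Agent.H36.eichlerShimuraRel_of_KL N (fun ℓ hℓ hℓN => hKL N ℓ hℓ hℓN))
    (s31w_level N) (s31w_kummerEmbedding N) (Fermat.Agent.H79.cohFaithful N S)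
    Fermat.Agent.H48.Lat.latticeBound hp hp𝒪 hpS hNS H q hq hqS

/-- **S34**, modulo the key lemma and unipotent inertia on torsion. -/
theorem s34_of_keyLemma (hKL : Fermat.Agent.H22.ES.KeyLemmaAllStatement)
    (hUT : UnipotentTorsionStatement N)
    {𝒪 : Type} [CommRing 𝒪] [IsDomain 𝒪] [IsDiscreteValuationRing 𝒪]
    [IsAdicComplete (IsLocalRing.maximalIdeal 𝒪) 𝒪]
    (hp : p.Prime) (hp𝒪 : (p : 𝒪) ∈ IsLocalRing.maximalIdeal 𝒪)
    (hpS : p ∈ S) (hNS : ∀ q : ℕ, q.Prime → q ∣ N → q ∈ S)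
    {θ : CuspForm.heckeAlgebra N 2 (↑S : Set ℕ) →+* IsLocalRing.ResidueField 𝒪}
    {T : Type} [CommRing T] [IsLocalRing T] [IsNoetherianRing T]
    [IsAdicComplete (IsLocalRing.maximalIdeal T) T] [Algebra 𝒪 T] [IsLocalHom (algebraMap 𝒪 T)]
    [Module.Finite 𝒪 T] [Module.Free 𝒪 T]
    (H : CuspForm.HeckeGaloisRepDatum N (↑S : Set ℕ) 𝒪 θ T)
    (q : ℕ) (hq : q.Prime) (hqp : q ≠ p) (hqN : q ∣ N) (hq2 : ¬ q ^ 2 ∣ N) :
    H.ρ.IsUnipotentOnInertiaAt q :=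
  s34_of_torsion Fermat.Agent.H72.frobPow (s31w_unramified N hKL)
    (Fermat.Agent.H49.heckeGaloisTorsionStatement N)
    (Fermat.Agent.H36.eichlerShimuraRel_of_KL N (fun ℓ hℓ hℓN => hKL N ℓ hℓ hℓN))
    (s31w_level N) (s31w_kummerEmbedding N) (Fermat.Agent.H79.cohFaithful N S)
    Fermat.Agent.H48.Lat.latticeBound hUT hp hp𝒪 hpS hNS H q hq hqp hqN hq2

end Fermat.Agent.H14
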