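/-
helper14 (P-ES / S31): linear algebra over a local ring used in the S31 assembly.

* `s31_span_range_eq_top`: Nakayama + residual Burnside: the image of a representation on a finite
  free module spans the endomorphism ring as soon as it does so residually.
* `s31_eq_one_of_trace`: if moreover `tr (ρ s * ρ g) = tr (ρ g)` for all `g`, then `ρ s = 1`.
* `s31_trace_mem`: endomorphisms with image in `I • V` have trace in `I`.
* `s31_trace_pow_eq_lucasV`: `tr (u ^ k) = V_k (a, d)` when `charpoly u = X² - a X + d` in rank 2.
-/
import Mathlib
import Fermat.Agent.H7.Frob.PowerTrick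

set_option autoImplicit false

namespace Fermat.Agent.H14

open IsLocalRing Fermat.Agent.H7.Frob

section LinAlg

variable {A : Type*} [CommRing A] {V : Type*} [AddCommGroup V] [Module A V]
  [Module.Free A V] [Module.Finite A V]

/-- Coordinates of an element of `I • ⊤` lie in `I`. -/
theorem s31_repr_mem {ι : Type*} (b : Module.Basis ι A V) (I : Ideal A) {v : V}
    (hv : v ∈ I • (⊤ : Submodule A V)) (i : ι) : b.repr v i ∈ I := by
  refine Submodule.smul_induction_on (p := fun v => b.repr v i ∈ I) hv ?_ ?_
  · intro a ha w _
    rw [map_smul, Finsupp.smul_apply, smul_eq_mul]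
    exact I.mul_mem_right _ ha
  · intro x y hx hy
    rw [map_add, Finsupp.add_apply]
    exact I.add_mem hx hy

/-- An endomorphism of a finite free module with image in `I • V` has trace in `I`. -/
theorem s31_trace_mem (I : Ideal A) (f : Module.End A V)
    (hf : ∀ v, f v ∈ I • (⊤ : Submodule A V)) : LinearMap.trace A V f ∈ I := by
  classical
  rw [LinearMap.trace_eq_matrix_trace A (Module.Free.chooseBasis A V), Matrix.trace]
  refine I.sum_mem fun i _ => ?_
  rw [Matrix.diag_apply, LinearMap.toMatrix_apply]
  exact s31_repr_mem _ I (hf _) i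

/-- In rank two, `tr (u ^ k)` is the Lucas polynomial in the coefficients of the characteristic
polynomial. -/
theorem s31_trace_pow_eq_lucasV [Nontrivial A] (hrank : Module.finrank A V = 2)
    (u : Module.End A V) (a d : A)
    (hchar : u.charpoly = Polynomial.X ^ 2 - Polynomial.C a * Polynomial.X + Polynomial.C d)
    (k : ℕ) : LinearMap.trace A V (u ^ k) = lucasV a d k := by
  classical
  have h0 : LinearMap.trace A V (u ^ 0) = lucasV a d 0 := by
    rw [pow_zero, LinearMap.trace_one, hrank, lucasV_zero]; norm_num
  have h1 : LinearMap.trace A V (u ^ 1) = lucasV a d 1 := by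
    rw [pow_one, lucasV_one]
    set b := Module.Free.chooseBasis A V with hb
    have hcard : Fintype.card (Module.Free.ChooseBasisIndex A V) = 2 := by
      rw [← Module.finrank_eq_card_chooseBasisIndex, hrank]
    haveI : Nonempty (Module.Free.ChooseBasisIndex A V) :=
      Fintype.card_pos_iff.mp (by rw [hcard]; norm_num)
    rw [LinearMap.trace_eq_matrix_trace A b, Matrix.trace_eq_neg_charpoly_coeff, hcard,
      ← LinearMap.charpoly_def, hchar]
    simp [Polynomial.coeff_C]
  have hCH : u * u - a • u + d • (1 : Module.End A V) = 0 := by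
    have := LinearMap.aeval_self_charpoly u
    rw [hchar] at this
    simpa [pow_two, Algebra.smul_def] using this
  have hrec : ∀ j : ℕ, u ^ (j + 2) = a • u ^ (j + 1) - d • u ^ j := by
    intro j
    have h2 : u * u = a • u - d • (1 : Module.End A V) := by
      have := hCH
      rw [sub_add_eq_add_sub, sub_eq_zero] at this
      rw [eq_sub_iff_add_eq, this]
    calc u ^ (j + 2) = (u * u) * u ^ j := by rw [add_comm, pow_add, pow_two]
      _ = a • u ^ (j + 1) - d • u ^ j := by
        rw [h2, sub_mul, smul_mul_assoc, smul_mul_assoc, one_mul, pow_succ']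
  have key : ∀ j : ℕ, LinearMap.trace A V (u ^ j) = lucasV a d j ∧
      LinearMap.trace A V (u ^ (j + 1)) = lucasV a d (j + 1) := by
    intro j
    induction j with
    | zero => exact ⟨h0, h1⟩
    | succ j ih =>
      refine ⟨ih.2, ?_⟩
      rw [hrec, map_sub, map_smul, map_smul, ih.1, ih.2, lucasV_add_two, smul_eq_mul,
        smul_eq_mul]
  exact (key k).1

variable [IsLocalRing A]

/-- An endomorphism that dies in the residual endomorphism ring lies in `𝔪 • End`. -/
theorem s31_mem_smul_top_of_baseChange_eq_zero (h : Module.End A V)
    (h0 : h.baseChange (ResidueField A) = 0) :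
    h ∈ (maximalIdeal A) • (⊤ : Submodule A (Module.End A V)) := by
  classical
  set b := Module.Free.chooseBasis A V with hb
  set M := LinearMap.toMatrix b b h with hM
  have hentries : ∀ i j, M i j ∈ maximalIdeal A := by
    intro i j
    have h1 := LinearMap.toMatrix_baseChange (ResidueField A) h b b
    rw [h0, map_zero] at h1
    have h2 := congrFun (congrFun h1 i) j
    rw [Matrix.zero_apply, Matrix.map_apply, ResidueField.algebraMap_eq] at h2
    exact (residue_eq_zero_iff _).mp h2.symm
  have hh : h = ∑ i, ∑ j, M i j • Matrix.toLin b b (Matrix.single i j (1 : A)) := by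
    have h1 : h = Matrix.toLin b b M := by rw [hM, Matrix.toLin_toMatrix]
    have h2 : M = ∑ i, ∑ j, M i j • Matrix.single i j (1 : A) := by
      conv_lhs => rw [Matrix.matrix_eq_sum_single M]
      refine Finset.sum_congr rfl fun i _ => Finset.sum_congr rfl fun j _ => ?_
      rw [Matrix.smul_single, smul_eq_mul, mul_one]
    conv_lhs => rw [h1, h2]
    simp only [map_sum, map_smul]
  rw [hh]
  exact Submodule.sum_mem _ fun i _ => Submodule.sum_mem _ fun j _ =>
    Submodule.smul_mem_smul (hentries i j) Submodule.mem_top

variable {G : Type*} [Monoid G]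

/-- Nakayama + residual spanning: the image of `ρ` spans `End_A V`. -/
theorem s31_span_range_eq_top (ρ : G →* Module.End A V)
    (hspan : Submodule.span (ResidueField A)
      (Set.range fun g : G => (ρ g).baseChange (ResidueField A)) = ⊤) :
    Submodule.span A (Set.range ρ) = ⊤ := by
  classical
  rw [eq_top_iff]
  refine Submodule.le_of_le_smul_of_le_jacobson_bot (I := maximalIdeal A)
    (Module.Finite.fg_top) (IsLocalRing.maximalIdeal_le_jacobson ⊥) ?_
  intro f _
  -- a preimage of the residual endomorphism in the span
  have hex : ∀ x ∈ Submodule.span (ResidueField A)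
      (Set.range fun g : G => (ρ g).baseChange (ResidueField A)),
      ∃ g ∈ Submodule.span A (Set.range ρ), g.baseChange (ResidueField A) = x := by
    intro x hx
    induction hx using Submodule.span_induction with
    | mem x hx =>
      obtain ⟨g, rfl⟩ := hx
      exact ⟨ρ g, Submodule.subset_span ⟨g, rfl⟩, rfl⟩
    | zero => exact ⟨0, Submodule.zero_mem _, LinearMap.baseChange_zero⟩
    | add x y _ _ hx hy =>
      obtain ⟨g, hg, rfl⟩ := hx
      obtain ⟨g', hg', rfl⟩ := hy
      exact ⟨g + g', Submodule.add_mem _ hg hg', LinearMap.baseChange_add _ _⟩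
    | smul c x _ hx =>
      obtain ⟨g, hg, rfl⟩ := hx
      obtain ⟨a, rfl⟩ := residue_surjective c
      refine ⟨a • g, Submodule.smul_mem _ a hg, ?_⟩
      rw [LinearMap.baseChange_smul]
      ext v
      simp only [LinearMap.smul_apply, TensorProduct.AlgebraTensorModule.curry_apply,
        LinearMap.restrictScalars_apply, TensorProduct.curry_apply]
      rw [← algebraMap_smul (ResidueField A) a, ResidueField.algebraMap_eq]
  obtain ⟨g, hg, hgf⟩ := hex (f.baseChange (ResidueField A)) (by rw [hspan]; exact Submodule.mem_top)
  have hker : (f - g).baseChange (ResidueField A) = 0 := by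
    have h := LinearMap.baseChange_sub (A := ResidueField A) f g
    rw [hgf] at h
    rw [h]
    ext v
    simp
  have hmem := s31_mem_smul_top_of_baseChange_eq_zero (f - g) hker
  have : f = g + (f - g) := by abel
  rw [this]
  exact Submodule.add_mem_sup hg hmem

end LinAlg

section Trace

variable {A : Type*} [CommRing A] [IsLocalRing A] {V : Type*} [AddCommGroup V] [Module A V]
  [Module.Free A V] [Module.Finite A V] {G : Type*} [Monoid G]

/-- **Trace rigidity for one element**: if the image of `ρ` spans `End V` residually and
`tr (ρ s * ρ g) = tr (ρ g)` for all `g`, then `ρ s = 1`. -/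
theorem s31_eq_one_of_trace (ρ : G →* Module.End A V)
    (hspan : Submodule.span (ResidueField A)
      (Set.range fun g : G => (ρ g).baseChange (ResidueField A)) = ⊤)
    (s : G) (htr : ∀ g : G, LinearMap.trace A V (ρ s * ρ g) = LinearMap.trace A V (ρ g)) :
    ρ s = 1 := by
  classical
  have htop := s31_span_range_eq_top ρ hspan
  have hall : ∀ X : Module.End A V, LinearMap.trace A V ((ρ s - 1) * X) = 0 := by
    intro X
    have hX : X ∈ Submodule.span A (Set.range ρ) := by rw [htop]; exact Submodule.mem_top
    induction hX using Submodule.span_induction with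
    | mem x hx =>
      obtain ⟨g, rfl⟩ := hx
      rw [sub_mul, one_mul, map_sub, htr g, sub_self]
    | zero => rw [mul_zero, map_zero]
    | add x y _ _ hx hy => rw [mul_add, map_add, hx, hy, add_zero]
    | smul c x _ hx => rw [mul_smul_comm, map_smul, hx, smul_zero]
  set b := Module.Free.chooseBasis A V with hb
  have hmat : LinearMap.toMatrix b b (ρ s - 1) = 0 := by
    rw [Matrix.ext_iff_trace_mul_right]
    intro x
    have := hall (Matrix.toLin b b x)
    rw [LinearMap.trace_eq_matrix_trace A b, LinearMap.toMatrix_mul,
      LinearMap.toMatrix_toLin] at this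
    rw [this, zero_mul, Matrix.trace_zero]
  have hzero : ρ s - 1 = 0 := (LinearMap.toMatrix b b).injective (by rw [hmat, map_zero])
  exact sub_eq_zero.mp hzero

end Trace

end Fermat.Agent.H14
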