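/-
helper14 (P-ES / S31): interface for the "faithful Hecke-Galois torsion module" route to S31.

`TraceRigidityStatement p N S` (TR) is the only input the S31 assembly needs besides a Frobenius
density statement; `HeckeTorsionCore p N S c` is what the Jacobian side (P-ES) provides
(for `M = J₀(N)[p^n]`).  `Fermat.Agent.H14.traceRigidity_of_core` (module `S31Core`) proves
(TR) from the cores.  No reducedness of the Hecke algebra and no modular points are needed.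
-/
import Mathlib
import Fermat.Prelude.Def_CuspForm_HeckeGaloisRepDatum
import Fermat.Prelude.Def_HeckeGalois_EichlerShimura
import Fermat.Agent.H7.Frob.PowerTrick

set_option autoImplicit false

namespace Fermat.Agent.H14

open Fermat.Agent.H7.Frob

/-- The absolute Galois group of `ℚ`. -/
abbrev S31GQ : Type := AlgebraicClosure ℚ ≃ₐ[ℚ] AlgebraicClosure ℚ

/-- The good primes for `(N, S)`: not dividing `N` and outside `S`. -/
def s31GoodPrimes (N : ℕ) (S : Finset ℕ) : Set Nat.Primes :=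
  {ℓ | ¬ (ℓ : ℕ) ∣ N ∧ (ℓ : ℕ) ∉ (↑S : Set ℕ)}

/-- Values of the Hecke variables in the Hecke algebra: `T_ℓ` at good primes, `0` elsewhere. -/
noncomputable def s31HeckeVal (N : ℕ) [NeZero N] (S : Finset ℕ) :
    Nat.Primes → CuspForm.heckeAlgebra N 2 (↑S : Set ℕ) := fun ℓ =>
  open Classical in
  if h : ¬ (ℓ : ℕ) ∣ N ∧ (ℓ : ℕ) ∉ (↑S : Set ℕ) then CuspForm.heckeAlgebra.T ℓ.2 h.1 h.2 else 0

theorem s31HeckeVal_of_good (N : ℕ) [NeZero N] (S : Finset ℕ) {ℓ : ℕ} (hℓ : ℓ.Prime)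
    (hℓN : ¬ ℓ ∣ N) (hℓS : ℓ ∉ (↑S : Set ℕ)) :
    s31HeckeVal N S ⟨ℓ, hℓ⟩ = CuspForm.heckeAlgebra.T hℓ hℓN hℓS := by
  unfold s31HeckeVal
  rw [dif_pos ⟨hℓN, hℓS⟩]

/-- **(TR)** trace rigidity: on a suitable finite level, the Hecke operator `V_k(T_ℓ, ℓ)` attached
to a Frobenius power `σ ^ k` is determined modulo `p ^ c` by the restriction of `σ ^ k`, up to
inertia at primes outside `S`. -/
def TraceRigidityStatement (p N : ℕ) [NeZero N] (S : Finset ℕ) : Prop :=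
  ∀ c : ℕ, ∃ L : IntermediateField ℚ (AlgebraicClosure ℚ), FiniteDimensional ℚ L ∧
    ∀ (ℓ ℓ' : ℕ) (hℓ : ℓ.Prime) (hℓ' : ℓ'.Prime) (hℓN : ¬ ℓ ∣ N) (hℓ'N : ¬ ℓ' ∣ N)
      (hℓS : ℓ ∉ (↑S : Set ℕ)) (hℓ'S : ℓ' ∉ (↑S : Set ℕ))
      (A A' : ValuationSubring (AlgebraicClosure ℚ)) (σ σ' : S31GQ),
      A.LiesOverPrime ℓ → A.IsFrobeniusAt σ ℓ → A'.LiesOverPrime ℓ' → A'.IsFrobeniusAt σ' ℓ' →
      ∀ (k k' : ℕ) (q : ℕ) (B : ValuationSubring (AlgebraicClosure ℚ)) (s : S31GQ),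
        q.Prime → q ∉ S → B.LiesOverPrime q → s ∈ B.inertiaSubgroupIn ℚ →
        (∀ x ∈ L, (σ ^ k) x = s ((σ' ^ k') x)) →
        ∃ t : CuspForm.heckeAlgebra N 2 (↑S : Set ℕ),
          lucasV (CuspForm.heckeAlgebra.T hℓ hℓN hℓS) ((ℓ : ℕ) : CuspForm.heckeAlgebra N 2 (↑S : Set ℕ)) k
            - lucasV (CuspForm.heckeAlgebra.T hℓ' hℓ'N hℓ'S)
                ((ℓ' : ℕ) : CuspForm.heckeAlgebra N 2 (↑S : Set ℕ)) k'
            = (p : CuspForm.heckeAlgebra N 2 (↑S : Set ℕ)) ^ c * t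

/-- A **faithful Hecke-Galois torsion module** of depth `c`: a `p`-power torsion module `M` with
commuting actions of `G_ℚ` and of the formal Hecke algebra `ℤ[X_ℓ]`, of finite level, unramified
outside `S`, satisfying the Eichler-Shimura relation at good primes, and such that a polynomial
in the good Hecke variables killing `M` evaluates into `p ^ c • 𝕋`.
Intended instance: `M = J₀(N)[p ^ n]` for `n` large. -/
structure HeckeTorsionCore (p N : ℕ) [NeZero N] (S : Finset ℕ) (c : ℕ) : Type 1 where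
  M : Type
  [instAddCommGroup : AddCommGroup M]
  [instModule : Module ModularCurve.HeckeAlg M]
  [instAction : DistribMulAction S31GQ M]
  [instComm : SMulCommClass S31GQ ModularCurve.HeckeAlg M]
  n : ℕ
  pow_smul : ∀ m : M, (p ^ n) • m = 0
  L : IntermediateField ℚ (AlgebraicClosure ℚ)
  finiteDimensional : FiniteDimensional ℚ L
  smul_eq_of_fix : ∀ σ : S31GQ, (∀ x ∈ L, σ x = x) → ∀ m : M, σ • m = m
  inertia : ∀ q : ℕ, q.Prime → q ∉ S → ∀ B : ValuationSubring (AlgebraicClosure ℚ),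
    B.LiesOverPrime q → ∀ s ∈ B.inertiaSubgroupIn ℚ, ∀ m : M, s • m = m
  frobenius : ∀ (ℓ : ℕ) (hℓ : ℓ.Prime), ¬ ℓ ∣ N → ℓ ∉ S →
    ∀ A : ValuationSubring (AlgebraicClosure ℚ), A.LiesOverPrime ℓ →
      ∀ σ : S31GQ, A.IsFrobeniusAt σ ℓ →
        ∀ m : M, σ • σ • m - ModularCurve.heckeGen ⟨ℓ, hℓ⟩ • (σ • m) + ℓ • m = 0
  faithful : ∀ P : ModularCurve.HeckeAlg, P ∈ MvPolynomial.supported ℤ (s31GoodPrimes N S) →
    (∀ m : M, P • m = 0) →
      ∃ t : CuspForm.heckeAlgebra N 2 (↑S : Set ℕ),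
        MvPolynomial.aeval (s31HeckeVal N S) P
          = (p : CuspForm.heckeAlgebra N 2 (↑S : Set ℕ)) ^ c * t

attribute [instance] HeckeTorsionCore.instAddCommGroup HeckeTorsionCore.instModule
  HeckeTorsionCore.instAction HeckeTorsionCore.instComm

/-- **CORE**: faithful Hecke-Galois torsion modules of every depth exist (P-ES output). -/
def HeckeTorsionCoreStatement (p N : ℕ) [NeZero N] (S : Finset ℕ) : Prop :=
  ∀ c : ℕ, Nonempty (HeckeTorsionCore p N S c)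

end Fermat.Agent.H14
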