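/-
helper14 (P-ES / S31): action of Frobenius lifts and inertia on roots of unity of order prime to
the residue characteristic (valuation subrings of any field, prelude notions
`LiesOverPrime`, `IsFrobeniusAt`, `inertiaSubgroupIn`).
-/
import Mathlib
import Fermat.Prelude.Def_EllipticCurve_FrobeniusTrace
import Fermat.Agent.H8.InertiaBasic

set_option autoImplicit false

namespace Fermat.Agent.H14

open ValuationSubring

variable {L : Type*} [Field L]

/-- Roots of unity have valuation one. -/
theorem s31_valuation_eq_one_of_pow_eq_one (A : ValuationSubring L) {ξ : L} {m : ℕ} (hm : m ≠ 0)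
    (h : ξ ^ m = 1) : A.valuation ξ = 1 := by
  have h1 : A.valuation ξ ^ m = 1 := by rw [← map_pow, h, map_one]
  exact (pow_eq_one_iff_of_nonneg zero_le' hm).mp h1

/-- Integers have valuation at most one. -/
theorem s31_valuation_intCast_le_one (A : ValuationSubring L) (a : ℤ) :
    A.valuation (a : L) ≤ 1 :=
  (A.valuation_le_one_iff _).mpr (intCast_mem A.toSubring a)

/-- A root of unity of order prime to the residue characteristic which is congruent to `1`
modulo the maximal ideal equals `1`. -/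
theorem s31_eq_one_of_pow_eq_one (A : ValuationSubring L) {q m : ℕ}
    (hq : A.LiesOverPrime q) (hcop : Nat.Coprime m q) {ξ : L} (hξ : ξ ^ m = 1)
    (hval : A.valuation (ξ - 1) < 1) : ξ = 1 := by
  by_contra hne
  have hq' : A.valuation (q : L) < 1 := (ValuationSubring.mem_nonunits_iff A).mp hq
  have hm0 : m ≠ 0 := by
    rintro rfl
    rw [Nat.coprime_zero_left] at hcop
    subst hcop
    rw [Nat.cast_one, map_one] at hq'
    exact lt_irrefl _ hq'
  have hvξ : A.valuation ξ = 1 := s31_valuation_eq_one_of_pow_eq_one A hm0 hξ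
  -- the geometric sum vanishes
  have hgeom : ∑ i ∈ Finset.range m, ξ ^ i = 0 := by
    have h := mul_geom_sum ξ m
    rw [hξ, sub_self] at h
    rcases mul_eq_zero.mp h with h1 | h1
    · exact absurd (sub_eq_zero.mp h1) hne
    · exact h1
  -- hence `m` is a sum of the `1 - ξ ^ i`
  have hm_eq : (m : L) = ∑ i ∈ Finset.range m, (1 - ξ ^ i) := by
    rw [Finset.sum_sub_distrib, hgeom, sub_zero, Finset.sum_const, Finset.card_range,
      nsmul_eq_mul, mul_one]
  have hterm : ∀ i : ℕ, A.valuation (1 - ξ ^ i) < 1 := by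
    intro i
    have hfac : 1 - ξ ^ i = -((ξ - 1) * ∑ j ∈ Finset.range i, ξ ^ j) := by
      rw [mul_geom_sum]; ring
    rw [hfac, Valuation.map_neg, map_mul]
    have hsum : A.valuation (∑ j ∈ Finset.range i, ξ ^ j) ≤ 1 :=
      Valuation.map_sum_le _ fun j _ => by rw [map_pow, hvξ, one_pow]
    calc A.valuation (ξ - 1) * A.valuation (∑ j ∈ Finset.range i, ξ ^ j)
        ≤ A.valuation (ξ - 1) * 1 := by gcongr
      _ < 1 := by rw [mul_one]; exact hval
  have hvm : A.valuation (m : L) < 1 := by
    rw [hm_eq]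
    exact Valuation.map_sum_lt _ one_ne_zero fun i _ => hterm i
  -- Bezout
  obtain ⟨a, b, hab⟩ := (Nat.isCoprime_iff_coprime.mpr hcop)
  have h1 : (1 : L) = (a : L) * (m : L) + (b : L) * (q : L) := by
    have := congrArg (fun z : ℤ => (z : L)) hab
    simp only [Int.cast_add, Int.cast_mul, Int.cast_natCast, Int.cast_one] at this
    exact this.symm
  have hlt : A.valuation (1 : L) < 1 := by
    rw [h1]
    refine Valuation.map_add_lt _ ?_ ?_
    · rw [map_mul]
      calc A.valuation (a : L) * A.valuation (m : L) ≤ 1 * A.valuation (m : L) := by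
            gcongr; exact s31_valuation_intCast_le_one A a
        _ < 1 := by rw [one_mul]; exact hvm
    · rw [map_mul]
      calc A.valuation (b : L) * A.valuation (q : L) ≤ 1 * A.valuation (q : L) := by
            gcongr; exact s31_valuation_intCast_le_one A b
        _ < 1 := by rw [one_mul]; exact hq'
  rw [map_one] at hlt
  exact lt_irrefl _ hlt

/-- Two roots of unity of order prime to the residue characteristic which are congruent modulo
the maximal ideal are equal. -/
theorem s31_eq_of_pow_eq_one (A : ValuationSubring L) {q m : ℕ}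
    (hq : A.LiesOverPrime q) (hcop : Nat.Coprime m q) {η η' : L} (hη : η ^ m = 1)
    (hη' : η' ^ m = 1) (hval : A.valuation (η - η') < 1) : η = η' := by
  have hm0 : m ≠ 0 := by
    rintro rfl
    rw [Nat.coprime_zero_left] at hcop
    subst hcop
    have hq' : A.valuation ((1 : ℕ) : L) < 1 := (ValuationSubring.mem_nonunits_iff A).mp hq
    rw [Nat.cast_one, map_one] at hq'
    exact lt_irrefl _ hq'
  have hη'0 : η' ≠ 0 := by
    rintro rfl
    rw [zero_pow hm0] at hη'
    exact zero_ne_one hη'
  have hvη' : A.valuation η' = 1 := s31_valuation_eq_one_of_pow_eq_one A hm0 hη'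
  have hξ : (η * η'⁻¹) ^ m = 1 := by rw [mul_pow, inv_pow, hη, hη', inv_one, mul_one]
  have hsub : η * η'⁻¹ - 1 = (η - η') * η'⁻¹ := by
    rw [sub_mul, mul_inv_cancel₀ hη'0]
  have hval' : A.valuation (η * η'⁻¹ - 1) < 1 := by
    rw [hsub, map_mul, map_inv₀, hvη', inv_one, mul_one]
    exact hval
  have := s31_eq_one_of_pow_eq_one A hq hcop hξ hval'
  rw [mul_inv_eq_one₀ hη'0] at this
  exact this

variable {K : Type*} [Field K] [Algebra K L]

/-- Elementwise consequence of `IsFrobeniusAt`. -/
theorem s31_sub_pow_mem_of_isFrobeniusAt {A : ValuationSubring L} {φ : L ≃ₐ[K] L}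
    {ℓ : ℕ} (h : A.IsFrobeniusAt φ ℓ) {x : L} (hx : x ∈ A) :
    A.valuation (φ x - x ^ ℓ) < 1 := by
  obtain ⟨hφ, hF⟩ := h
  have := hF (IsLocalRing.residue A ⟨x, hx⟩)
  rw [← IsLocalRing.ResidueField.residue_smul, ← map_pow, ← sub_eq_zero, ← map_sub,
    IsLocalRing.residue_eq_zero_iff, ← ValuationSubring.coe_mem_nonunits_iff] at this
  exact (ValuationSubring.mem_nonunits_iff A).mp this

/-- A Frobenius lift at `ℓ` raises roots of unity of order prime to `ℓ` to the `ℓ`-th power. -/
theorem s31_frobenius_root {A : ValuationSubring L} {φ : L ≃ₐ[K] L} {ℓ m : ℕ}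
    (hA : A.LiesOverPrime ℓ) (h : A.IsFrobeniusAt φ ℓ) (hcop : Nat.Coprime m ℓ) {ζ : L}
    (hζ : ζ ^ m = 1) : φ ζ = ζ ^ ℓ := by
  have hm0 : m ≠ 0 := by
    rintro rfl
    rw [Nat.coprime_zero_left] at hcop
    subst hcop
    have hq' : A.valuation ((1 : ℕ) : L) < 1 := (ValuationSubring.mem_nonunits_iff A).mp hA
    rw [Nat.cast_one, map_one] at hq'
    exact lt_irrefl _ hq'
  have hmem : ζ ∈ A :=
    (A.valuation_le_one_iff ζ).mp (s31_valuation_eq_one_of_pow_eq_one A hm0 hζ).le
  refine s31_eq_of_pow_eq_one A hA hcop ?_ ?_ (s31_sub_pow_mem_of_isFrobeniusAt h hmem)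
  · rw [← map_pow, hζ, map_one]
  · rw [← pow_mul, mul_comm, pow_mul, hζ, one_pow]

/-- Powers of a Frobenius lift on roots of unity. -/
theorem s31_frobenius_pow_root {A : ValuationSubring L} {φ : L ≃ₐ[K] L} {ℓ m : ℕ}
    (hA : A.LiesOverPrime ℓ) (h : A.IsFrobeniusAt φ ℓ) (hcop : Nat.Coprime m ℓ) {ζ : L}
    (hζ : ζ ^ m = 1) (k : ℕ) : (φ ^ k) ζ = ζ ^ (ℓ ^ k) := by
  induction k with
  | zero => simp
  | succ k ih =>
    rw [pow_succ', AlgEquiv.mul_apply, ih, map_pow, s31_frobenius_root hA h hcop hζ, ← pow_mul,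
      pow_succ']

/-- Inertia at `q` fixes roots of unity of order prime to `q`. -/
theorem s31_inertia_root {B : ValuationSubring L} {s : L ≃ₐ[K] L} {q m : ℕ}
    (hB : B.LiesOverPrime q) (hs : s ∈ B.inertiaSubgroupIn K) (hcop : Nat.Coprime m q) {ζ : L}
    (hζ : ζ ^ m = 1) : s ζ = ζ := by
  have hm0 : m ≠ 0 := by
    rintro rfl
    rw [Nat.coprime_zero_left] at hcop
    subst hcop
    have hq' : B.valuation ((1 : ℕ) : L) < 1 := (ValuationSubring.mem_nonunits_iff B).mp hB
    rw [Nat.cast_one, map_one] at hq'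
    exact lt_irrefl _ hq'
  have hmem : ζ ∈ B :=
    (B.valuation_le_one_iff ζ).mp (s31_valuation_eq_one_of_pow_eq_one B hm0 hζ).le
  refine s31_eq_of_pow_eq_one B hB hcop ?_ hζ
    ((ValuationSubring.mem_nonunits_iff B).mp
      (Fermat.Agent.H8.apply_sub_mem_nonunits_of_mem_inertia B hs hmem))
  rw [← map_pow, hζ, map_one]

end Fermat.Agent.H14
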