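/-
helper14 (P-ES / S31): trace rigidity (TR) from faithful Hecke-Galois torsion modules.

Main result: `Fermat.Agent.H14.traceRigidity_of_core`.
On a torsion module `M` with the Eichler-Shimura relation `σ² - X_ℓ σ + ℓ = 0`, the Hecke
variable acts as `σ + ℓ σ⁻¹`, so `V_k(X_ℓ, ℓ)` acts as `σ^k + ℓ^k σ^{-k}`: it is determined by the
action of `σ^k` on `M` and on `μ_{p^n}`.
-/
import Fermat.Agent.H14.S31CoreInterface
import Fermat.Agent.H14.S31Roots

set_option autoImplicit false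

namespace Fermat.Agent.H14

open Fermat.Agent.H7.Frob

section Lucas

variable {R R' : Type*} [CommRing R] [CommRing R']

/-- Lucas polynomials commute with ring homomorphisms. -/
theorem s31_map_lucasV (f : R →+* R') (a d : R) (k : ℕ) :
    f (lucasV a d k) = lucasV (f a) (f d) k := by
  have key : ∀ k : ℕ, f (lucasV a d k) = lucasV (f a) (f d) k ∧
      f (lucasV a d (k + 1)) = lucasV (f a) (f d) (k + 1) := by
    intro k
    induction k with
    | zero =>
      refine ⟨?_, ?_⟩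
      · rw [lucasV_zero, lucasV_zero, map_ofNat]
      · rw [lucasV_one, lucasV_one]
    | succ k ih =>
      refine ⟨ih.2, ?_⟩
      rw [lucasV_add_two, lucasV_add_two, map_sub, map_mul, map_mul, ih.1, ih.2]
  exact (key k).1

/-- Lucas polynomials of elements of a subalgebra lie in the subalgebra. -/
theorem s31_lucasV_mem {A : Type*} [CommRing A] (B : Subalgebra ℤ A) {a d : A} (ha : a ∈ B)
    (hd : d ∈ B) (k : ℕ) : lucasV a d k ∈ B := by
  have key : ∀ k : ℕ, lucasV a d k ∈ B ∧ lucasV a d (k + 1) ∈ B := by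
    intro k
    induction k with
    | zero =>
      refine ⟨?_, ?_⟩
      · rw [lucasV_zero]
        exact ofNat_mem B 2
      · rw [lucasV_one]; exact ha
    | succ k ih =>
      refine ⟨ih.2, ?_⟩
      rw [lucasV_add_two]
      exact B.sub_mem (B.mul_mem ha ih.2) (B.mul_mem hd ih.1)
  exact (key k).1

end Lucas

section Action

variable {R : Type*} [CommRing R] {G : Type*} [Group G] {M : Type*} [AddCommGroup M]
  [Module R M] [DistribMulAction G M] [SMulCommClass G R M]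

/-- On a module with the quadratic relation `σ² - a σ + ℓ = 0`, the Lucas polynomial
`V_k(a, ℓ)` acts as `σ ^ k + ℓ ^ k (σ ^ k)⁻¹`. -/
theorem s31_lucas_smul (σ : G) (a : R) (ℓ : ℕ)
    (h : ∀ m : M, σ • σ • m - a • (σ • m) + ℓ • m = 0) (k : ℕ) (m : M) :
    lucasV a (ℓ : R) k • m = (σ ^ k) • m + (ℓ ^ k) • ((σ ^ k)⁻¹ • m) := by
  set u : Module.End R M := DistribMulAction.toModuleEnd R M σ with hu
  have hu_apply : ∀ (j : ℕ) (x : M), (u ^ j) x = (σ ^ j) • x := by
    intro j x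
    rw [hu, ← map_pow]
    rfl
  have hrel : u * u - a • u + (ℓ : R) • (1 : Module.End R M) = 0 := by
    apply LinearMap.ext
    intro x
    have h1 : (u * u) x = σ • σ • x := rfl
    have h2 : (a • u) x = a • (σ • x) := rfl
    have h3 : ((ℓ : R) • (1 : Module.End R M)) x = ℓ • x := by
      rw [LinearMap.smul_apply, Module.End.one_apply, Nat.cast_smul_eq_nsmul]
    rw [LinearMap.add_apply, LinearMap.sub_apply, h1, h2, h3, LinearMap.zero_apply]
    exact h x
  have hV := pow_add_conj_pow u a (ℓ : R) hrel k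
  have hxy : u * (a • (1 : Module.End R M) - u) = (ℓ : R) • (1 : Module.End R M) := by
    have : u * (a • (1 : Module.End R M) - u)
        = -(u * u - a • u + (ℓ : R) • (1 : Module.End R M)) + (ℓ : R) • (1 : Module.End R M) := by
      rw [mul_sub, mul_smul_comm, mul_one]; abel
    rw [this, hrel, neg_zero, zero_add]
  have hcomm : Commute u (a • (1 : Module.End R M) - u) := by
    refine Commute.sub_right ?_ (Commute.refl u)
    exact (Commute.one_right u).smul_right a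
  have hpow : (a • (1 : Module.End R M) - u) ^ k * u ^ k
      = ((ℓ : R) ^ k) • (1 : Module.End R M) := by
    rw [← (hcomm.symm).mul_pow, hcomm.symm.eq, hxy, smul_pow, one_pow]
  have e1 : lucasV a (ℓ : R) k • m = (u ^ k) m + ((a • (1 : Module.End R M) - u) ^ k) m := by
    have := congrArg (fun f : Module.End R M => f m) hV
    simp only [LinearMap.add_apply, LinearMap.smul_apply, Module.End.one_apply] at this
    exact this.symm
  have e2 : ((a • (1 : Module.End R M) - u) ^ k) m = (ℓ ^ k) • ((σ ^ k)⁻¹ • m) := by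
    have hm : m = (u ^ k) ((σ ^ k)⁻¹ • m) := by
      rw [hu_apply, smul_inv_smul]
    have := congrArg (fun f : Module.End R M => f ((σ ^ k)⁻¹ • m)) hpow
    simp only [Module.End.mul_apply, LinearMap.smul_apply, Module.End.one_apply] at this
    rw [← hm] at this
    rw [this, ← Nat.cast_pow, Nat.cast_smul_eq_nsmul]
  rw [e1, e2, hu_apply]

/-- Congruent natural numbers act identically on a module killed by the modulus. -/
theorem s31_nsmul_eq_of_modEq {d a b : ℕ} (hab : a ≡ b [MOD d]) (y : M) (hy : d • y = 0) :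
    a • y = b • y := by
  have h1 : (d : ℤ) ∣ (b : ℤ) - (a : ℤ) :=
    (Int.modEq_iff_dvd).mp ((Int.natCast_modEq_iff).mpr hab)
  obtain ⟨z, hz⟩ := h1
  have h2 : ((b : ℤ) - (a : ℤ)) • y = 0 := by
    rw [hz, mul_comm, mul_smul, natCast_zsmul, hy, smul_zero]
  rw [sub_smul, natCast_zsmul, natCast_zsmul, sub_eq_zero] at h2
  exact h2.symm

end Action

/-- **(TR) from CORE**: faithful Hecke-Galois torsion modules give trace rigidity. -/
theorem traceRigidity_of_core {p N : ℕ} [NeZero N] {S : Finset ℕ} (hp : p.Prime) (hpS : p ∈ S)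
    (hcore : HeckeTorsionCoreStatement p N S) : TraceRigidityStatement p N S := by
  intro c
  obtain ⟨C⟩ := hcore c
  -- a primitive `p ^ n`-th root of unity
  have : NeZero (p : ℚ) := ⟨Nat.cast_ne_zero.mpr hp.ne_zero⟩
  obtain ⟨ζ, hζ⟩ := HasEnoughRootsOfUnity.exists_primitiveRoot (AlgebraicClosure ℚ) (p ^ C.n)
  have hζ1 : ζ ^ (p ^ C.n) = 1 := hζ.pow_eq_one
  have hζint : IsIntegral ℚ ζ := (AlgebraicClosure.isAlgebraic ℚ).isIntegral.isIntegral ζ
  have : FiniteDimensional ℚ C.L := C.finiteDimensional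
  have : FiniteDimensional ℚ (IntermediateField.adjoin ℚ {ζ}) :=
    IntermediateField.adjoin.finiteDimensional hζint
  refine ⟨C.L ⊔ IntermediateField.adjoin ℚ {ζ}, IntermediateField.finiteDimensional_sup _ _, ?_⟩
  intro ℓ ℓ' hℓ hℓ' hℓN hℓ'N hℓS hℓ'S A A' σ σ' hA hσ hA' hσ' k k' q B s hq hqS hB hs hagree
  have hζL : ζ ∈ C.L ⊔ IntermediateField.adjoin ℚ {ζ} :=
    (le_sup_right : IntermediateField.adjoin ℚ {ζ} ≤ _)
      (IntermediateField.mem_adjoin_simple_self ℚ ζ)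
  have hLL : ∀ x ∈ C.L, x ∈ C.L ⊔ IntermediateField.adjoin ℚ {ζ} := fun x hx =>
    (le_sup_left : C.L ≤ _) hx
  -- coprimality
  have hℓp : ℓ ≠ p := fun h => hℓS (by rw [h]; exact Finset.mem_coe.mpr hpS)
  have hℓ'p : ℓ' ≠ p := fun h => hℓ'S (by rw [h]; exact Finset.mem_coe.mpr hpS)
  have hqp : q ≠ p := fun h => hqS (by rw [h]; exact hpS)
  have hcopℓ : Nat.Coprime (p ^ C.n) ℓ :=
    Nat.Coprime.pow_left _ ((Nat.coprime_primes hp hℓ).mpr (Ne.symm hℓp))
  have hcopℓ' : Nat.Coprime (p ^ C.n) ℓ' :=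
    Nat.Coprime.pow_left _ ((Nat.coprime_primes hp hℓ').mpr (Ne.symm hℓ'p))
  have hcopq : Nat.Coprime (p ^ C.n) q :=
    Nat.Coprime.pow_left _ ((Nat.coprime_primes hp hq).mpr (Ne.symm hqp))
  -- (i) the cyclotomic congruence
  have hmod : ℓ ^ k ≡ ℓ' ^ k' [MOD p ^ C.n] := by
    have h1 : (σ ^ k) ζ = ζ ^ (ℓ ^ k) := s31_frobenius_pow_root hA hσ hcopℓ hζ1 k
    have h2 : (σ' ^ k') ζ = ζ ^ (ℓ' ^ k') := s31_frobenius_pow_root hA' hσ' hcopℓ' hζ1 k'
    have h3 : s (ζ ^ (ℓ' ^ k')) = ζ ^ (ℓ' ^ k') := by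
      rw [map_pow, s31_inertia_root hB hs hcopq hζ1]
    have h4 : ζ ^ (ℓ ^ k) = ζ ^ (ℓ' ^ k') := by
      rw [← h1, hagree ζ hζL, h2, h3]
    have hfin : IsOfFinOrder ζ :=
      isOfFinOrder_iff_pow_eq_one.mpr ⟨p ^ C.n, pow_pos hp.pos _, hζ1⟩
    have := hfin.pow_eq_pow_iff_modEq.mp h4
    rwa [← hζ.eq_orderOf] at this
  -- (ii) the two Frobenius powers act identically on `M`
  have hact : ∀ m : C.M, (σ ^ k) • m = (σ' ^ k') • m := by
    intro m
    have hfix : ∀ x ∈ C.L, ((s * σ' ^ k')⁻¹ * σ ^ k) x = x := by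
      intro x hx
      rw [AlgEquiv.mul_apply, hagree x (hLL x hx), ← AlgEquiv.mul_apply s, ← AlgEquiv.mul_apply,
        inv_mul_cancel, AlgEquiv.one_apply]
    have h1 := C.smul_eq_of_fix _ hfix m
    rw [mul_smul, inv_smul_eq_iff, mul_smul] at h1
    rw [h1]
    exact C.inertia q hq hqS B hB s hs _
  have hactinv : ∀ m : C.M, (σ ^ k)⁻¹ • m = (σ' ^ k')⁻¹ • m := by
    intro m
    rw [inv_smul_eq_iff, hact, smul_inv_smul]
  -- (iii) the difference of Lucas polynomials kills `M`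
  set P : ModularCurve.HeckeAlg :=
    lucasV (ModularCurve.heckeGen ⟨ℓ, hℓ⟩) ((ℓ : ℕ) : ModularCurve.HeckeAlg) k
      - lucasV (ModularCurve.heckeGen ⟨ℓ', hℓ'⟩) ((ℓ' : ℕ) : ModularCurve.HeckeAlg) k' with hP
  have hkill : ∀ m : C.M, P • m = 0 := by
    intro m
    rw [hP, sub_smul,
      s31_lucas_smul σ (ModularCurve.heckeGen ⟨ℓ, hℓ⟩) ℓ (C.frobenius ℓ hℓ hℓN hℓS A hA σ hσ) k m,
      s31_lucas_smul σ' (ModularCurve.heckeGen ⟨ℓ', hℓ'⟩) ℓ'
        (C.frobenius ℓ' hℓ' hℓ'N hℓ'S A' hA' σ' hσ') k' m,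
      hact m, hactinv m, s31_nsmul_eq_of_modEq hmod _ (C.pow_smul _), sub_self]
  -- (iv) it is supported on the good primes
  have hsupp : P ∈ MvPolynomial.supported ℤ (s31GoodPrimes N S) := by
    rw [hP]
    refine Subalgebra.sub_mem _ (s31_lucasV_mem _ ?_ (natCast_mem _ ℓ) k)
      (s31_lucasV_mem _ ?_ (natCast_mem _ ℓ') k')
    · exact MvPolynomial.X_mem_supported.mpr ⟨hℓN, hℓS⟩
    · exact MvPolynomial.X_mem_supported.mpr ⟨hℓ'N, hℓ'S⟩
  -- (v) faithfulness
  obtain ⟨t, ht⟩ := C.faithful P hsupp hkill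
  refine ⟨t, ?_⟩
  rw [← ht, hP, map_sub]
  have e1 : MvPolynomial.aeval (s31HeckeVal N S)
      (lucasV (ModularCurve.heckeGen ⟨ℓ, hℓ⟩) ((ℓ : ℕ) : ModularCurve.HeckeAlg) k)
      = lucasV (CuspForm.heckeAlgebra.T hℓ hℓN hℓS)
          ((ℓ : ℕ) : CuspForm.heckeAlgebra N 2 (↑S : Set ℕ)) k := by
    have := s31_map_lucasV (MvPolynomial.aeval (s31HeckeVal N S)).toRingHom
      (ModularCurve.heckeGen ⟨ℓ, hℓ⟩) ((ℓ : ℕ) : ModularCurve.HeckeAlg) k
    simp only [AlgHom.toRingHom_eq_coe, RingHom.coe_coe, ModularCurve.aeval_heckeGen,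
      map_natCast] at this
    rw [this, s31HeckeVal_of_good N S hℓ hℓN hℓS]
  have e2 : MvPolynomial.aeval (s31HeckeVal N S)
      (lucasV (ModularCurve.heckeGen ⟨ℓ', hℓ'⟩) ((ℓ' : ℕ) : ModularCurve.HeckeAlg) k')
      = lucasV (CuspForm.heckeAlgebra.T hℓ' hℓ'N hℓ'S)
          ((ℓ' : ℕ) : CuspForm.heckeAlgebra N 2 (↑S : Set ℕ)) k' := by
    have := s31_map_lucasV (MvPolynomial.aeval (s31HeckeVal N S)).toRingHom
      (ModularCurve.heckeGen ⟨ℓ', hℓ'⟩) ((ℓ' : ℕ) : ModularCurve.HeckeAlg) k'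
    simp only [AlgHom.toRingHom_eq_coe, RingHom.coe_coe, ModularCurve.aeval_heckeGen,
      map_natCast] at this
    rw [this, s31HeckeVal_of_good N S hℓ' hℓ'N hℓ'S]
  rw [e1, e2]

end Fermat.Agent.H14
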