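/-
helper14 (P-ES / S31): the S31 assembly from trace rigidity (TR) and a Frobenius-power density
statement.

`s31_of_traceRigidity`: in a Hecke-Galois datum of level `N` away from `S`, the representation is
unramified at every prime outside `S`, provided (TR) holds for `(p, N, S)` and every element of
`G_ℚ` agrees on every finite level with a power of a Frobenius lift at a prime outside `S`.
-/
import Fermat.Prelude.Def_CuspForm_HeckeGaloisRepDatum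
import Fermat.Agent.H99.Burnside
import Fermat.Agent.H72.FDT.Interfaces
import Fermat.Agent.H14.S31Core
import Fermat.Agent.H14.S31LinAlg

set_option autoImplicit false

namespace Fermat.Agent.H14

open IsLocalRing Fermat.Agent.H7.Frob

section Congr

variable {A : Type} [CommRing A] [IsLocalRing A]

/-- Two Galois elements that agree on the level-`c` field of an adic representation have
congruent traces modulo `𝔪 ^ c`. -/
theorem s31_trace_sub_mem (ρ : GaloisRepAdic A) (c : ℕ)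
    (L : IntermediateField ℚ (AlgebraicClosure ℚ))
    (hL : ∀ σ : S31GQ, (∀ x ∈ L, σ x = x) →
      ∀ v : ρ.V, ρ.ρ σ v - v ∈ (maximalIdeal A ^ c) • (⊤ : Submodule A ρ.V))
    (x y : S31GQ) (hxy : ∀ z ∈ L, x z = y z) :
    LinearMap.trace A ρ.V (ρ.ρ y) - LinearMap.trace A ρ.V (ρ.ρ x) ∈ maximalIdeal A ^ c := by
  rw [← map_sub]
  refine s31_trace_mem _ _ fun v => ?_
  have hfix : ∀ z ∈ L, (x⁻¹ * y) z = z := by
    intro z hz
    rw [AlgEquiv.mul_apply, ← hxy z hz, ← AlgEquiv.mul_apply, inv_mul_cancel, AlgEquiv.one_apply]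
  have h1 := hL (x⁻¹ * y) hfix v
  have h2 : (ρ.ρ y - ρ.ρ x) v = ρ.ρ x (ρ.ρ (x⁻¹ * y) v - v) := by
    rw [map_sub, ← Module.End.mul_apply, ← map_mul, mul_inv_cancel_left, LinearMap.sub_apply]
  rw [h2]
  -- linear maps preserve `I • ⊤`
  refine Submodule.smul_induction_on
    (p := fun w => ρ.ρ x w ∈ (maximalIdeal A ^ c) • (⊤ : Submodule A ρ.V)) h1 ?_ ?_
  · intro a ha w _
    rw [map_smul]
    exact Submodule.smul_mem_smul ha Submodule.mem_top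
  · intro w w' hw hw'
    rw [map_add]
    exact Submodule.add_mem _ hw hw'

end Congr

variable {p : ℕ} {N : ℕ} [NeZero N] {S : Finset ℕ}
  {𝒪 : Type} [CommRing 𝒪] [IsDomain 𝒪] [IsDiscreteValuationRing 𝒪]
  [IsAdicComplete (IsLocalRing.maximalIdeal 𝒪) 𝒪]
  {θ : CuspForm.heckeAlgebra N 2 (↑S : Set ℕ) →+* IsLocalRing.ResidueField 𝒪}
  {T : Type} [CommRing T] [IsLocalRing T] [IsNoetherianRing T]
  [IsAdicComplete (IsLocalRing.maximalIdeal T) T] [Algebra 𝒪 T] [IsLocalHom (algebraMap 𝒪 T)]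
  [Module.Finite 𝒪 T] [Module.Free 𝒪 T]

/-- The trace of a Frobenius power in a Hecke-Galois datum is a Lucas polynomial in `π (T_ℓ)`. -/
theorem s31_trace_frobenius_pow (H : CuspForm.HeckeGaloisRepDatum N (↑S : Set ℕ) 𝒪 θ T)
    {ℓ : ℕ} (hℓ : ℓ.Prime) (hℓN : ¬ ℓ ∣ N) (hℓS : ℓ ∉ (↑S : Set ℕ))
    (A : ValuationSubring (AlgebraicClosure ℚ)) (hA : A.LiesOverPrime ℓ) (σ : S31GQ)
    (hσ : A.IsFrobeniusAt σ ℓ) (k : ℕ) :
    LinearMap.trace T H.ρ.V (H.ρ.ρ (σ ^ k))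
      = H.π (lucasV (CuspForm.heckeAlgebra.T hℓ hℓN hℓS)
          ((ℓ : ℕ) : CuspForm.heckeAlgebra N 2 (↑S : Set ℕ)) k) := by
  rw [map_pow, s31_trace_pow_eq_lucasV H.ρ.finrank_eq (H.ρ.ρ σ)
    (H.π (CuspForm.heckeAlgebra.T hℓ hℓN hℓS)) ((ℓ : ℕ) : T)
    (H.charpoly_frob ℓ hℓ hℓN hℓS A hA σ hσ) k, s31_map_lucasV, map_natCast]

/-- **S31 from (TR) and Frobenius-power density.** -/
theorem s31_of_traceRigidity (hFrob : Fermat.Agent.H72.FrobPowStatement)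
    (hTR : TraceRigidityStatement p N S)
    (hp𝒪 : (p : 𝒪) ∈ IsLocalRing.maximalIdeal 𝒪)
    (hNS : ∀ q : ℕ, q.Prime → q ∣ N → q ∈ S)
    (H : CuspForm.HeckeGaloisRepDatum N (↑S : Set ℕ) 𝒪 θ T)
    (q : ℕ) (hq : q.Prime) (hqS : q ∉ S) :
    H.ρ.IsUnramifiedAt q := by
  intro P hP s hs
  have hspan : Submodule.span (ResidueField T)
      (Set.range fun g : S31GQ => (H.ρ.ρ g).baseChange (ResidueField T)) = ⊤ :=
    Fermat.Agent.H99.burnside _ H.ρ.residual H.residual_absIrr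
  refine s31_eq_one_of_trace H.ρ.ρ hspan s fun g => ?_
  rw [← map_mul]
  -- `p` lies in the maximal ideal of `T`
  have hpT : (p : T) ∈ maximalIdeal T := by
    have h1 : (p : T) = algebraMap 𝒪 T (p : 𝒪) := (map_natCast (algebraMap 𝒪 T) p).symm
    rw [h1]
    exact map_nonunit (algebraMap 𝒪 T) _ hp𝒪
  -- congruence modulo every power of the maximal ideal
  have key : ∀ c : ℕ, LinearMap.trace T H.ρ.V (H.ρ.ρ (s * g))
      - LinearMap.trace T H.ρ.V (H.ρ.ρ g) ∈ maximalIdeal T ^ c := by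
    intro c
    obtain ⟨L₁, hL₁fin, hL₁⟩ := hTR c
    obtain ⟨L₂, hL₂fin, hL₂⟩ := H.ρ.isAdicContinuous c
    have hfin : FiniteDimensional ℚ (L₁ ⊔ L₂ : IntermediateField ℚ (AlgebraicClosure ℚ)) :=
      IntermediateField.finiteDimensional_sup _ _
    obtain ⟨ℓ, A, σ, k, j, hℓ, hℓS, hA, hσ, hk, -⟩ := hFrob (L₁ ⊔ L₂) hfin (s * g) S
    obtain ⟨ℓ', A', σ', k', j', hℓ', hℓ'S, hA', hσ', hk', -⟩ := hFrob (L₁ ⊔ L₂) hfin g S
    have hℓN : ¬ ℓ ∣ N := fun h => hℓS (hNS ℓ hℓ h)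
    have hℓ'N : ¬ ℓ' ∣ N := fun h => hℓ'S (hNS ℓ' hℓ' h)
    have hℓSc : ℓ ∉ (↑S : Set ℕ) := fun h => hℓS (Finset.mem_coe.mp h)
    have hℓ'Sc : ℓ' ∉ (↑S : Set ℕ) := fun h => hℓ'S (Finset.mem_coe.mp h)
    have hL₁le : ∀ x ∈ L₁, x ∈ (L₁ ⊔ L₂ : IntermediateField ℚ (AlgebraicClosure ℚ)) :=
      fun x hx => (le_sup_left : L₁ ≤ L₁ ⊔ L₂) hx
    have hL₂le : ∀ x ∈ L₂, x ∈ (L₁ ⊔ L₂ : IntermediateField ℚ (AlgebraicClosure ℚ)) :=
      fun x hx => (le_sup_right : L₂ ≤ L₁ ⊔ L₂) hx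
    have hagree : ∀ x ∈ L₁, (σ ^ k) x = s ((σ' ^ k') x) := by
      intro x hx
      rw [← hk x (hL₁le x hx), ← hk' x (hL₁le x hx), AlgEquiv.mul_apply]
    obtain ⟨t, ht⟩ := hL₁ ℓ ℓ' hℓ hℓ' hℓN hℓ'N hℓSc hℓ'Sc A A' σ σ' hA hσ hA' hσ' k k' q P s
      hq hqS hP hs hagree
    -- the three differences
    have d1 : LinearMap.trace T H.ρ.V (H.ρ.ρ (s * g))
        - LinearMap.trace T H.ρ.V (H.ρ.ρ (σ ^ k)) ∈ maximalIdeal T ^ c :=
      s31_trace_sub_mem H.ρ c L₂ hL₂ (σ ^ k) (s * g)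
        fun z hz => (hk z (hL₂le z hz)).symm
    have d3 : LinearMap.trace T H.ρ.V (H.ρ.ρ (σ' ^ k'))
        - LinearMap.trace T H.ρ.V (H.ρ.ρ g) ∈ maximalIdeal T ^ c :=
      s31_trace_sub_mem H.ρ c L₂ hL₂ g (σ' ^ k') fun z hz => hk' z (hL₂le z hz)
    have d2 : LinearMap.trace T H.ρ.V (H.ρ.ρ (σ ^ k))
        - LinearMap.trace T H.ρ.V (H.ρ.ρ (σ' ^ k')) ∈ maximalIdeal T ^ c := by
      rw [s31_trace_frobenius_pow H hℓ hℓN hℓSc A hA σ hσ k,
        s31_trace_frobenius_pow H hℓ' hℓ'N hℓ'Sc A' hA' σ' hσ' k', ← map_sub, ht, map_mul,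
        map_pow, map_natCast]
      exact Ideal.mul_mem_right _ _ (Ideal.pow_mem_pow hpT c)
    have hsum : LinearMap.trace T H.ρ.V (H.ρ.ρ (s * g)) - LinearMap.trace T H.ρ.V (H.ρ.ρ g)
        = (LinearMap.trace T H.ρ.V (H.ρ.ρ (s * g)) - LinearMap.trace T H.ρ.V (H.ρ.ρ (σ ^ k)))
          + (LinearMap.trace T H.ρ.V (H.ρ.ρ (σ ^ k))
              - LinearMap.trace T H.ρ.V (H.ρ.ρ (σ' ^ k')))
          + (LinearMap.trace T H.ρ.V (H.ρ.ρ (σ' ^ k'))
              - LinearMap.trace T H.ρ.V (H.ρ.ρ g)) := by ring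
    rw [hsum]
    exact Ideal.add_mem _ (Ideal.add_mem _ d1 d2) d3
  -- separatedness
  have hH : IsHausdorff (maximalIdeal T) T := inferInstance
  refine sub_eq_zero.mp (hH.haus' _ fun c => ?_)
  rw [SModEq.zero, smul_eq_mul, Ideal.mul_top]
  exact key c

end Fermat.Agent.H14
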