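/-
helper14 (P-SS / S34): linear algebra in rank two for the S34 assembly.  Mathlib only.

* `s34_charpoly_eq`       : `charpoly f = X² - tr(f) X + det(f)` in rank two;
* `s34_det_sub_one_mem`   : `f ≡ 1 mod I` implies `det f ≡ 1 mod I`;
* `s34_det_of_charpoly`   : the determinant from a quadratic characteristic polynomial.
-/
import Mathlib

set_option autoImplicit false

namespace Fermat.Agent.H14

open Polynomial

variable {A : Type*} [CommRing A] {V : Type*} [AddCommGroup V] [Module A V]
  [Module.Free A V] [Module.Finite A V]

/-- In rank two, the characteristic polynomial is `X² - tr X + det`. -/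
theorem s34_charpoly_eq [Nontrivial A] (hrank : Module.finrank A V = 2) (f : Module.End A V) :
    f.charpoly = X ^ 2 - C (LinearMap.trace A V f) * X + C (LinearMap.det f) := by
  classical
  let b := Module.finBasisOfFinrankEq A V hrank
  rw [← LinearMap.charpoly_toMatrix f b, Matrix.charpoly_fin_two,
    LinearMap.trace_eq_matrix_trace A b, LinearMap.det_toMatrix b]

/-- The determinant from a quadratic characteristic polynomial. -/
theorem s34_det_of_charpoly [Nontrivial A] (hrank : Module.finrank A V = 2)
    (f : Module.End A V) (a d : A) (h : f.charpoly = X ^ 2 - C a * X + C d) :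
    LinearMap.det f = d := by
  have h1 := s34_charpoly_eq hrank f
  rw [h] at h1
  have := congrArg (fun p : A[X] => p.coeff 0) h1
  simpa [Polynomial.coeff_X_pow, Polynomial.coeff_C_mul] using this.symm

/-- An endomorphism congruent to the identity modulo `I` has determinant congruent to `1`. -/
theorem s34_det_sub_one_mem (I : Ideal A) (f : Module.End A V)
    (hf : ∀ v, f v - v ∈ I • (⊤ : Submodule A V)) : LinearMap.det f - 1 ∈ I := by
  classical
  let b := Module.Free.chooseBasis A V
  have hentry : ∀ i j, LinearMap.toMatrix b b f i j - (1 : Matrix _ _ A) i j ∈ I := by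
    intro i j
    have h1 : b.repr (f (b j) - b j) i ∈ I := by
      refine Submodule.smul_induction_on (p := fun v => b.repr v i ∈ I) (hf (b j)) ?_ ?_
      · intro a ha w _
        rw [map_smul, Finsupp.smul_apply, smul_eq_mul]
        exact I.mul_mem_right _ ha
      · intro x y hx hy
        rw [map_add, Finsupp.add_apply]
        exact I.add_mem hx hy
    rw [LinearMap.toMatrix_apply, Matrix.one_apply]
    rw [map_sub, Finsupp.sub_apply, Module.Basis.repr_self, Finsupp.single_apply] at h1
    by_cases hij : i = j
    · rw [if_pos hij]
      rw [if_pos hij.symm] at h1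
      exact h1
    · rw [if_neg hij]
      rw [if_neg (Ne.symm hij)] at h1
      exact h1
  have hmap : (LinearMap.toMatrix b b f).map (Ideal.Quotient.mk I) = 1 := by
    ext i j
    rw [Matrix.map_apply, Matrix.one_apply]
    have h2 := (Ideal.Quotient.eq).mpr (hentry i j)
    rw [h2, Matrix.one_apply]
    split_ifs
    · exact map_one _
    · exact map_zero _
  have hdet : Ideal.Quotient.mk I (LinearMap.toMatrix b b f).det = 1 := by
    rw [RingHom.map_det, RingHom.mapMatrix_apply, hmap, Matrix.det_one]
  rw [← LinearMap.det_toMatrix b, ← Ideal.Quotient.eq, hdet, map_one]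

end Fermat.Agent.H14
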