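/-
helper14 (P-SS / S34): the S34 assembly.

`s34_of_unipotentCore`: in a Hecke-Galois datum of level `N` away from `S`, inertia at a prime
`q ≠ p` acts with characteristic polynomial `(X - 1)²`, provided there are faithful
Hecke-Galois torsion modules (as for S31) on which the inertia groups at `q` satisfy
`(s - 1)² = 0`, and every element of `G_ℚ` agrees on every finite level with a power of a
Frobenius lift at a prime outside `S`.

Mechanism: `s ≡ φ ^ k` on a finite level, `tr ρ(φ ^ k) = π (V_k (T_ℓ, ℓ))`, and `V_k (X_ℓ, ℓ)`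
acts on the torsion module as `s + ℓ ^ k s⁻¹ = s + s⁻¹ = 2`; faithfulness gives
`V_k (T_ℓ, ℓ) ≡ 2` modulo `p ^ c`.  The determinant is the cyclotomic character.
-/
import Fermat.Prelude.Def_GaloisRep_LocalConditions
import Fermat.Agent.H14.S31Assembly
import Fermat.Agent.H14.S34LinAlg

set_option autoImplicit false

namespace Fermat.Agent.H14

open IsLocalRing Fermat.Agent.H7.Frob

/-- The inertia elements at `q`. -/
def s34Inertia (q : ℕ) : Set S31GQ :=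
  {s | ∃ B : ValuationSubring (AlgebraicClosure ℚ), B.LiesOverPrime q ∧ s ∈ B.inertiaSubgroupIn ℚ}

/-- **CORE with unipotent inertia**: faithful Hecke-Galois torsion modules of every depth on
which the elements of `𝒰` satisfy `(s - 1)² = 0`. -/
def UnipotentCoreStatement (p N : ℕ) [NeZero N] (S : Finset ℕ) (𝒰 : Set S31GQ) : Prop :=
  ∀ c : ℕ, ∃ C : HeckeTorsionCore p N S c,
    ∀ s ∈ 𝒰, ∀ m : C.M, s • s • m - 2 • (s • m) + m = 0

section Congr

variable {A : Type} [CommRing A] [IsLocalRing A]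

/-- Two Galois elements that agree on the level-`c` field of an adic representation have
congruent determinants modulo `𝔪 ^ c`. -/
theorem s34_det_sub_mem (ρ : GaloisRepAdic A) (c : ℕ)
    (L : IntermediateField ℚ (AlgebraicClosure ℚ))
    (hL : ∀ σ : S31GQ, (∀ x ∈ L, σ x = x) →
      ∀ v : ρ.V, ρ.ρ σ v - v ∈ (maximalIdeal A ^ c) • (⊤ : Submodule A ρ.V))
    (x y : S31GQ) (hxy : ∀ z ∈ L, x z = y z) :
    LinearMap.det (ρ.ρ y) - LinearMap.det (ρ.ρ x) ∈ maximalIdeal A ^ c := by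
  have hfix : ∀ z ∈ L, (x⁻¹ * y) z = z := by
    intro z hz
    rw [AlgEquiv.mul_apply, ← hxy z hz, ← AlgEquiv.mul_apply, inv_mul_cancel, AlgEquiv.one_apply]
  have h1 := s34_det_sub_one_mem (maximalIdeal A ^ c) (ρ.ρ (x⁻¹ * y)) (hL (x⁻¹ * y) hfix)
  have h2 : LinearMap.det (ρ.ρ y) - LinearMap.det (ρ.ρ x)
      = LinearMap.det (ρ.ρ x) * (LinearMap.det (ρ.ρ (x⁻¹ * y)) - 1) := by
    rw [mul_sub, mul_one, ← map_mul, ← map_mul, mul_inv_cancel_left]
  rw [h2]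
  exact Ideal.mul_mem_left _ _ h1

end Congr

variable {p : ℕ} {N : ℕ} [NeZero N] {S : Finset ℕ}
  {𝒪 : Type} [CommRing 𝒪] [IsDomain 𝒪] [IsDiscreteValuationRing 𝒪]
  [IsAdicComplete (IsLocalRing.maximalIdeal 𝒪) 𝒪]
  {θ : CuspForm.heckeAlgebra N 2 (↑S : Set ℕ) →+* IsLocalRing.ResidueField 𝒪}
  {T : Type} [CommRing T] [IsLocalRing T] [IsNoetherianRing T]
  [IsAdicComplete (IsLocalRing.maximalIdeal T) T] [Algebra 𝒪 T] [IsLocalHom (algebraMap 𝒪 T)]
  [Module.Finite 𝒪 T] [Module.Free 𝒪 T]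

/-- **S34 from the unipotent CORE and Frobenius-power density.** -/
theorem s34_of_unipotentCore (hFrob : Fermat.Agent.H72.FrobPowStatement)
    (hp : p.Prime) (hp𝒪 : (p : 𝒪) ∈ IsLocalRing.maximalIdeal 𝒪) (hpS : p ∈ S)
    (hNS : ∀ q : ℕ, q.Prime → q ∣ N → q ∈ S)
    (H : CuspForm.HeckeGaloisRepDatum N (↑S : Set ℕ) 𝒪 θ T)
    (q : ℕ) (hq : q.Prime) (hqp : q ≠ p)
    (hcore : UnipotentCoreStatement p N S (s34Inertia q)) :
    H.ρ.IsUnipotentOnInertiaAt q := by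
  intro P hP s hs
  have hsU : s ∈ s34Inertia q := ⟨P, hP, hs⟩
  -- `p` lies in the maximal ideal of `T`
  have hpT : (p : T) ∈ maximalIdeal T := by
    have h1 : (p : T) = algebraMap 𝒪 T (p : 𝒪) := (map_natCast (algebraMap 𝒪 T) p).symm
    rw [h1]
    exact map_nonunit (algebraMap 𝒪 T) _ hp𝒪
  have key : ∀ c : ℕ,
      LinearMap.trace T H.ρ.V (H.ρ.ρ s) - 2 ∈ maximalIdeal T ^ c ∧
      LinearMap.det (H.ρ.ρ s) - 1 ∈ maximalIdeal T ^ c := by
    intro c
    obtain ⟨C, hC⟩ := hcore c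
    obtain ⟨L₂, hL₂fin, hL₂⟩ := H.ρ.isAdicContinuous c
    -- a primitive `p ^ (n + c)`-th root of unity
    have : NeZero (p : ℚ) := ⟨Nat.cast_ne_zero.mpr hp.ne_zero⟩
    obtain ⟨ζ, hζ⟩ :=
      HasEnoughRootsOfUnity.exists_primitiveRoot (AlgebraicClosure ℚ) (p ^ (C.n + c))
    have hζ1 : ζ ^ (p ^ (C.n + c)) = 1 := hζ.pow_eq_one
    have hζint : IsIntegral ℚ ζ := (AlgebraicClosure.isAlgebraic ℚ).isIntegral.isIntegral ζ
    have : FiniteDimensional ℚ C.L := C.finiteDimensional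
    have : FiniteDimensional ℚ (IntermediateField.adjoin ℚ {ζ}) :=
      IntermediateField.adjoin.finiteDimensional hζint
    have : FiniteDimensional ℚ (C.L ⊔ IntermediateField.adjoin ℚ {ζ} :
        IntermediateField ℚ (AlgebraicClosure ℚ)) := IntermediateField.finiteDimensional_sup _ _
    have hfin : FiniteDimensional ℚ ((C.L ⊔ IntermediateField.adjoin ℚ {ζ}) ⊔ L₂ :
        IntermediateField ℚ (AlgebraicClosure ℚ)) := IntermediateField.finiteDimensional_sup _ _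
    obtain ⟨ℓ, A, φ, k, j, hℓ, hℓS, hA, hφ, hk, -⟩ :=
      hFrob ((C.L ⊔ IntermediateField.adjoin ℚ {ζ}) ⊔ L₂) hfin s S
    have hℓN : ¬ ℓ ∣ N := fun h => hℓS (hNS ℓ hℓ h)
    have hℓSc : ℓ ∉ (↑S : Set ℕ) := fun h => hℓS (Finset.mem_coe.mp h)
    have hLle : ∀ x ∈ C.L, x ∈ ((C.L ⊔ IntermediateField.adjoin ℚ {ζ}) ⊔ L₂ :
        IntermediateField ℚ (AlgebraicClosure ℚ)) := fun x hx =>
      (le_sup_left : (C.L ⊔ IntermediateField.adjoin ℚ {ζ}) ≤ _)
        ((le_sup_left : C.L ≤ C.L ⊔ IntermediateField.adjoin ℚ {ζ}) hx)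
    have hζL : ζ ∈ ((C.L ⊔ IntermediateField.adjoin ℚ {ζ}) ⊔ L₂ :
        IntermediateField ℚ (AlgebraicClosure ℚ)) :=
      (le_sup_left : (C.L ⊔ IntermediateField.adjoin ℚ {ζ}) ≤ _)
        ((le_sup_right : IntermediateField.adjoin ℚ {ζ} ≤ C.L ⊔ IntermediateField.adjoin ℚ {ζ})
          (IntermediateField.mem_adjoin_simple_self ℚ ζ))
    have hL₂le : ∀ x ∈ L₂, x ∈ ((C.L ⊔ IntermediateField.adjoin ℚ {ζ}) ⊔ L₂ :
        IntermediateField ℚ (AlgebraicClosure ℚ)) := fun x hx =>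
      (le_sup_right : L₂ ≤ _) hx
    -- coprimality
    have hℓp : ℓ ≠ p := fun h => hℓS (by rw [h]; exact hpS)
    have hcopℓ : Nat.Coprime (p ^ (C.n + c)) ℓ :=
      Nat.Coprime.pow_left _ ((Nat.coprime_primes hp hℓ).mpr (Ne.symm hℓp))
    have hcopq : Nat.Coprime (p ^ (C.n + c)) q :=
      Nat.Coprime.pow_left _ ((Nat.coprime_primes hp hq).mpr (Ne.symm hqp))
    -- (i) the cyclotomic congruence `ℓ ^ k ≡ 1`
    have hmod : ℓ ^ k ≡ 1 [MOD p ^ (C.n + c)] := by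
      have h1 : (φ ^ k) ζ = ζ ^ (ℓ ^ k) := s31_frobenius_pow_root hA hφ hcopℓ hζ1 k
      have h3 : s ζ = ζ := s31_inertia_root hP hs hcopq hζ1
      have h4 : ζ ^ (ℓ ^ k) = ζ ^ 1 := by
        rw [← h1, ← hk ζ hζL, h3, pow_one]
      have hfinord : IsOfFinOrder ζ :=
        isOfFinOrder_iff_pow_eq_one.mpr ⟨p ^ (C.n + c), pow_pos hp.pos _, hζ1⟩
      have := hfinord.pow_eq_pow_iff_modEq.mp h4
      rwa [← hζ.eq_orderOf] at this
    have hmodn : ℓ ^ k ≡ 1 [MOD p ^ C.n] :=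
      hmod.of_dvd (pow_dvd_pow p (Nat.le_add_right _ _))
    have hmodc : ℓ ^ k ≡ 1 [MOD p ^ c] :=
      hmod.of_dvd (pow_dvd_pow p (Nat.le_add_left _ _))
    -- (ii) `φ ^ k` acts as `s` on `M`
    have hact : ∀ m : C.M, (φ ^ k) • m = s • m := by
      intro m
      have hfix : ∀ x ∈ C.L, (s⁻¹ * φ ^ k) x = x := by
        intro x hx
        rw [AlgEquiv.mul_apply, ← hk x (hLle x hx), ← AlgEquiv.mul_apply, inv_mul_cancel,
          AlgEquiv.one_apply]
      have h1 := C.smul_eq_of_fix _ hfix m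
      rw [mul_smul, inv_smul_eq_iff] at h1
      exact h1
    have hactinv : ∀ m : C.M, (φ ^ k)⁻¹ • m = s⁻¹ • m := by
      intro m
      rw [inv_smul_eq_iff, hact, smul_inv_smul]
    -- (iii) `V_k (X_ℓ, ℓ) - 2` kills `M`
    set Q : ModularCurve.HeckeAlg :=
      lucasV (ModularCurve.heckeGen ⟨ℓ, hℓ⟩) ((ℓ : ℕ) : ModularCurve.HeckeAlg) k
        - ((2 : ℕ) : ModularCurve.HeckeAlg) with hQ
    have hkill : ∀ m : C.M, Q • m = 0 := by
      intro m
      have hu := hC s hsU (s⁻¹ • m)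
      rw [smul_inv_smul] at hu
      rw [hQ, sub_smul,
        s31_lucas_smul φ (ModularCurve.heckeGen ⟨ℓ, hℓ⟩) ℓ
          (C.frobenius ℓ hℓ hℓN hℓSc A hA φ hφ) k m,
        hact m, hactinv m, s31_nsmul_eq_of_modEq hmodn _ (C.pow_smul _), one_smul,
        Nat.cast_smul_eq_nsmul]
      rw [← hu]
      abel
    -- (iv) it is supported on the good primes
    have hsupp : Q ∈ MvPolynomial.supported ℤ (s31GoodPrimes N S) := by
      rw [hQ]
      refine Subalgebra.sub_mem _ (s31_lucasV_mem _ ?_ (natCast_mem _ ℓ) k) (natCast_mem _ 2)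
      exact MvPolynomial.X_mem_supported.mpr ⟨hℓN, hℓSc⟩
    -- (v) faithfulness
    obtain ⟨t, ht⟩ := C.faithful Q hsupp hkill
    have e1 : MvPolynomial.aeval (s31HeckeVal N S)
        (lucasV (ModularCurve.heckeGen ⟨ℓ, hℓ⟩) ((ℓ : ℕ) : ModularCurve.HeckeAlg) k)
        = lucasV (CuspForm.heckeAlgebra.T hℓ hℓN hℓSc)
            ((ℓ : ℕ) : CuspForm.heckeAlgebra N 2 (↑S : Set ℕ)) k := by
      have := s31_map_lucasV (MvPolynomial.aeval (s31HeckeVal N S)).toRingHom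
        (ModularCurve.heckeGen ⟨ℓ, hℓ⟩) ((ℓ : ℕ) : ModularCurve.HeckeAlg) k
      simp only [AlgHom.toRingHom_eq_coe, RingHom.coe_coe, ModularCurve.aeval_heckeGen,
        map_natCast] at this
      rw [this, s31HeckeVal_of_good N S hℓ hℓN hℓSc]
    have ht' : lucasV (CuspForm.heckeAlgebra.T hℓ hℓN hℓSc)
        ((ℓ : ℕ) : CuspForm.heckeAlgebra N 2 (↑S : Set ℕ)) k - ((2 : ℕ) : _)
        = (p : CuspForm.heckeAlgebra N 2 (↑S : Set ℕ)) ^ c * t := by
      rw [← ht, hQ, map_sub, e1, map_natCast]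
    -- the trace
    have d1 : LinearMap.trace T H.ρ.V (H.ρ.ρ s)
        - LinearMap.trace T H.ρ.V (H.ρ.ρ (φ ^ k)) ∈ maximalIdeal T ^ c :=
      s31_trace_sub_mem H.ρ c L₂ hL₂ (φ ^ k) s fun z hz => (hk z (hL₂le z hz)).symm
    have d2 : LinearMap.trace T H.ρ.V (H.ρ.ρ (φ ^ k)) - 2 ∈ maximalIdeal T ^ c := by
      have h2 : (2 : T) = H.π ((2 : ℕ) : CuspForm.heckeAlgebra N 2 (↑S : Set ℕ)) := by
        rw [map_natCast]; norm_num
      rw [s31_trace_frobenius_pow H hℓ hℓN hℓSc A hA φ hφ k, h2, ← map_sub, ht', map_mul,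
        map_pow, map_natCast]
      exact Ideal.mul_mem_right _ _ (Ideal.pow_mem_pow hpT c)
    have htr : LinearMap.trace T H.ρ.V (H.ρ.ρ s) - 2 ∈ maximalIdeal T ^ c := by
      have : LinearMap.trace T H.ρ.V (H.ρ.ρ s) - 2
          = (LinearMap.trace T H.ρ.V (H.ρ.ρ s) - LinearMap.trace T H.ρ.V (H.ρ.ρ (φ ^ k)))
            + (LinearMap.trace T H.ρ.V (H.ρ.ρ (φ ^ k)) - 2) := by ring
      rw [this]
      exact Ideal.add_mem _ d1 d2
    -- the determinant
    have d3 : LinearMap.det (H.ρ.ρ s) - LinearMap.det (H.ρ.ρ (φ ^ k)) ∈ maximalIdeal T ^ c :=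
      s34_det_sub_mem H.ρ c L₂ hL₂ (φ ^ k) s fun z hz => (hk z (hL₂le z hz)).symm
    have d4 : LinearMap.det (H.ρ.ρ (φ ^ k)) - 1 ∈ maximalIdeal T ^ c := by
      have hdφ : LinearMap.det (H.ρ.ρ φ) = (ℓ : T) :=
        s34_det_of_charpoly H.ρ.finrank_eq (H.ρ.ρ φ) _ _ (H.charpoly_frob ℓ hℓ hℓN hℓSc A hA φ hφ)
      rw [map_pow, map_pow, hdφ]
      -- `ℓ ^ k - 1` is divisible by `p ^ c`
      have h1 : (p ^ c : ℤ) ∣ ((ℓ ^ k : ℕ) : ℤ) - 1 := by
        have := (Int.modEq_iff_dvd).mp ((Int.natCast_modEq_iff).mpr hmodc.symm)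
        simpa using this
      obtain ⟨z, hz⟩ := h1
      have h2 : ((ℓ : T) ^ k - 1) = (p : T) ^ c * (z : T) := by
        have := congrArg (Int.cast : ℤ → T) hz
        push_cast at this
        exact this
      rw [h2]
      exact Ideal.mul_mem_right _ _ (Ideal.pow_mem_pow hpT c)
    have hdet : LinearMap.det (H.ρ.ρ s) - 1 ∈ maximalIdeal T ^ c := by
      have : LinearMap.det (H.ρ.ρ s) - 1
          = (LinearMap.det (H.ρ.ρ s) - LinearMap.det (H.ρ.ρ (φ ^ k)))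
            + (LinearMap.det (H.ρ.ρ (φ ^ k)) - 1) := by ring
      rw [this]
      exact Ideal.add_mem _ d3 d4
    exact ⟨htr, hdet⟩
  -- separatedness
  have hH : IsHausdorff (maximalIdeal T) T := inferInstance
  have htr : LinearMap.trace T H.ρ.V (H.ρ.ρ s) = 2 := by
    refine sub_eq_zero.mp (hH.haus' _ fun c => ?_)
    rw [SModEq.zero, smul_eq_mul, Ideal.mul_top]
    exact (key c).1
  have hdet : LinearMap.det (H.ρ.ρ s) = 1 := by
    refine sub_eq_zero.mp (hH.haus' _ fun c => ?_)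
    rw [SModEq.zero, smul_eq_mul, Ideal.mul_top]
    exact (key c).2
  rw [s34_charpoly_eq H.ρ.finrank_eq, htr, hdet, map_ofNat, map_one]
  ring

end Fermat.Agent.H14
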