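/-
helper14 (P-ES / S31): evaluation of polynomials at a commuting family of endomorphisms of an
abelian group, and intertwining maps.  Mathlib only.
-/
import Mathlib

set_option autoImplicit false

namespace Fermat.Agent.H14

section EvalHom

variable {ι : Type} {M : Type} [AddCommGroup M]

theorem s31_isMulCommutative_adjoin (t : ι → Module.End ℤ M)
    (hcomm : ∀ i j, t i * t j = t j * t i) :
    IsMulCommutative (Algebra.adjoin ℤ (Set.range t)) :=
  Algebra.isMulCommutative_adjoin ℤ (by
    rintro _ ⟨i, rfl⟩ _ ⟨j, rfl⟩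
    exact hcomm i j)

open scoped IsMulCommutative in
/-- Evaluation at a commuting family, with values in the generated subalgebra. -/
noncomputable def s31EvalAux (t : ι → Module.End ℤ M) (hcomm : ∀ i j, t i * t j = t j * t i) :
    MvPolynomial ι ℤ →ₐ[ℤ] (Algebra.adjoin ℤ (Set.range t) : Subalgebra ℤ (Module.End ℤ M)) :=
  haveI := s31_isMulCommutative_adjoin t hcomm
  MvPolynomial.aeval fun i =>
    (⟨t i, Algebra.subset_adjoin (Set.mem_range_self i)⟩ : Algebra.adjoin ℤ (Set.range t))

/-- Evaluation of polynomials at a commuting family of endomorphisms. -/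
noncomputable def s31Eval (t : ι → Module.End ℤ M) (hcomm : ∀ i j, t i * t j = t j * t i) :
    MvPolynomial ι ℤ →+* Module.End ℤ M :=
  ((Algebra.adjoin ℤ (Set.range t)).val.comp (s31EvalAux t hcomm)).toRingHom

theorem s31Eval_apply (t : ι → Module.End ℤ M) (hcomm : ∀ i j, t i * t j = t j * t i)
    (P : MvPolynomial ι ℤ) :
    s31Eval t hcomm P = (s31EvalAux t hcomm P : Module.End ℤ M) := rfl

open scoped IsMulCommutative in
theorem s31EvalAux_X (t : ι → Module.End ℤ M) (hcomm : ∀ i j, t i * t j = t j * t i) (i : ι) :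
    s31EvalAux t hcomm (MvPolynomial.X i)
      = ⟨t i, Algebra.subset_adjoin (Set.mem_range_self i)⟩ :=
  haveI := s31_isMulCommutative_adjoin t hcomm
  MvPolynomial.aeval_X _ i

@[simp]
theorem s31Eval_X (t : ι → Module.End ℤ M) (hcomm : ∀ i j, t i * t j = t j * t i) (i : ι) :
    s31Eval t hcomm (MvPolynomial.X i) = t i := by
  rw [s31Eval_apply, s31EvalAux_X]

theorem s31Eval_C (t : ι → Module.End ℤ M) (hcomm : ∀ i j, t i * t j = t j * t i) (a : ℤ) :
    s31Eval t hcomm (MvPolynomial.C a) = (a : Module.End ℤ M) := by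
  rw [← MvPolynomial.algebraMap_eq, eq_intCast, map_intCast]

theorem s31Eval_C_apply (t : ι → Module.End ℤ M) (hcomm : ∀ i j, t i * t j = t j * t i) (a : ℤ)
    (x : M) : s31Eval t hcomm (MvPolynomial.C a) x = a • x := by
  rw [s31Eval_C, Module.End.intCast_apply]

theorem s31Eval_mul_X_apply (t : ι → Module.End ℤ M) (hcomm : ∀ i j, t i * t j = t j * t i)
    (P : MvPolynomial ι ℤ) (i : ι) (x : M) :
    s31Eval t hcomm (P * MvPolynomial.X i) x = s31Eval t hcomm P (t i x) := by
  rw [map_mul, s31Eval_X, Module.End.mul_apply]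

/-- An additive map intertwining two commuting families intertwines all polynomials. -/
theorem s31Eval_intertwine {M' : Type} [AddCommGroup M']
    (t : ι → Module.End ℤ M) (hcomm : ∀ i j, t i * t j = t j * t i)
    (t' : ι → Module.End ℤ M') (hcomm' : ∀ i j, t' i * t' j = t' j * t' i)
    (f : M →+ M') (h : ∀ i x, f (t i x) = t' i (f x)) (P : MvPolynomial ι ℤ) :
    ∀ x : M, f (s31Eval t hcomm P x) = s31Eval t' hcomm' P (f x) := by
  induction P using MvPolynomial.induction_on with
  | C a =>
    intro x
    rw [s31Eval_C_apply, s31Eval_C_apply, map_zsmul]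
  | add P Q hP hQ =>
    intro x
    rw [map_add, map_add, LinearMap.add_apply, LinearMap.add_apply, map_add, hP, hQ]
  | mul_X P i hP =>
    intro x
    rw [s31Eval_mul_X_apply, s31Eval_mul_X_apply, hP, h]

end EvalHom

end Fermat.Agent.H14
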