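/-
helper14 (P-ES / S31): S31 in the frozen shape from the two external inputs
* `Fermat.Agent.H72.FrobPowStatement` (Frobenius-power density, P-FDT / P-CHEB), and
* `Fermat.Agent.H14.HeckeTorsionCoreStatement` (faithful Hecke-Galois torsion modules, P-ES).
-/
import Fermat.Agent.H14.S31Assembly

set_option autoImplicit false

namespace Fermat.Agent.H14

variable {p : ℕ} {N : ℕ} [NeZero N] {S : Finset ℕ}
  {𝒪 : Type} [CommRing 𝒪] [IsDomain 𝒪] [IsDiscreteValuationRing 𝒪]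
  [IsAdicComplete (IsLocalRing.maximalIdeal 𝒪) 𝒪]
  {θ : CuspForm.heckeAlgebra N 2 (↑S : Set ℕ) →+* IsLocalRing.ResidueField 𝒪}
  {T : Type} [CommRing T] [IsLocalRing T] [IsNoetherianRing T]
  [IsAdicComplete (IsLocalRing.maximalIdeal T) T] [Algebra 𝒪 T] [IsLocalHom (algebraMap 𝒪 T)]
  [Module.Finite 𝒪 T] [Module.Free 𝒪 T]

/-- **S31 from the core**: the frozen statement S31, from Frobenius-power density and the
existence of faithful Hecke-Galois torsion modules for `(p, N, S)`. -/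
theorem s31_of_core (hFrob : Fermat.Agent.H72.FrobPowStatement)
    (hCore : HeckeTorsionCoreStatement p N S)
    (hp : p.Prime)
    (hp𝒪 : (p : 𝒪) ∈ IsLocalRing.maximalIdeal 𝒪) (hpS : p ∈ S)
    (hNS : ∀ q : ℕ, q.Prime → q ∣ N → q ∈ S)
    (H : CuspForm.HeckeGaloisRepDatum N (↑S : Set ℕ) 𝒪 θ T)
    (q : ℕ) (hq : q.Prime) (hqS : q ∉ S) :
    H.ρ.IsUnramifiedAt q :=
  s31_of_traceRigidity hFrob (traceRigidity_of_core hp hpS hCore) hp𝒪 hNS H q hq hqS

end Fermat.Agent.H14
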