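/-
helper14 (P-ES / S31): the lattice `Λ = Hom_par(Γ₀(N), ℤ)` as a module over the formal Hecke
algebra (good primes act by `cohT`, the others by `0`); `Λ` is finitely generated and free.
-/
import Fermat.Agent.H14.S31JInterfaces
import Fermat.Agent.H14.S31Eval
import Fermat.Agent.H21.EsC.Period
import Fermat.Agent.H50.EsAFin

set_option autoImplicit false

namespace Fermat.Agent.H14

open CongruenceSubgroup ModularCurve ModularCurve.Period

section Finite

/-- Integer-valued homomorphisms on a finitely generated group form a finitely generated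
`ℤ`-module. -/
theorem s31_finite_hom_int (G : Type) [Group G] [hG : Group.FG G] :
    Module.Finite ℤ (Additive G →+ ℤ) := by
  classical
  obtain ⟨s, hs⟩ := (Group.fg_iff.mp hG)
  obtain ⟨s, hs, hsfin⟩ := s, hs.1, hs.2
  haveI : Finite s := hsfin
  let r : (Additive G →+ ℤ) →ₗ[ℤ] (s → ℤ) :=
    { toFun := fun ψ g => ψ (Additive.ofMul (g : G))
      map_add' := fun ψ φ => rfl
      map_smul' := fun a ψ => rfl }
  have hr : Function.Injective r := by
    intro ψ φ h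
    have hag : ∀ g ∈ s, ψ (Additive.ofMul g) = φ (Additive.ofMul g) := fun g hg =>
      congrFun h ⟨g, hg⟩
    have hcl : ∀ g ∈ Subgroup.closure s, ψ (Additive.ofMul g) = φ (Additive.ofMul g) := by
      intro g hg
      induction hg using Subgroup.closure_induction with
      | mem x hx => exact hag x hx
      | one => rw [ofMul_one, map_zero, map_zero]
      | mul x y _ _ hx hy => rw [ofMul_mul, map_add, map_add, hx, hy]
      | inv x _ hx => rw [ofMul_inv, map_neg, map_neg, hx]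
    refine AddMonoidHom.ext fun g => ?_
    obtain ⟨g, rfl⟩ := Additive.ofMul.surjective g
    exact hcl g (hs ▸ Subgroup.mem_top g)
  exact Module.Finite.of_injective r hr

variable (N : ℕ) [NeZero N]

instance s31Lat_finite : Module.Finite ℤ (S31Lat N) := by
  haveI : Group.FG ↥(Gamma0 N) := Fermat.Agent.H50.gamma0_fg N
  haveI := s31_finite_hom_int ↥(Gamma0 N)
  exact Module.Finite.of_injective (parabolicHoms ℤ (Gamma0 N) ℤ).subtype
    (Submodule.injective_subtype _)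

instance s31Lat_isTorsionFree : Module.IsTorsionFree ℤ (S31Lat N) := by
  haveI : Module.IsTorsionFree ℤ (Additive ↥(Gamma0 N) →+ ℤ) := by
    refine Function.Injective.moduleIsTorsionFree (R := ℤ) (N := ↥(Gamma0 N) → ℤ)
      (fun ψ : Additive ↥(Gamma0 N) →+ ℤ => fun g => ψ (Additive.ofMul g)) ?_ (fun _ _ => rfl)
    intro ψ φ h
    refine AddMonoidHom.ext fun g => ?_
    obtain ⟨g, rfl⟩ := Additive.ofMul.surjective g
    exact congrFun h g
  exact Function.Injective.moduleIsTorsionFree (R := ℤ)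
    (fun x : S31Lat N => (x : Additive ↥(Gamma0 N) →+ ℤ)) Subtype.val_injective (fun _ _ => rfl)

instance s31Lat_free : Module.Free ℤ (S31Lat N) := inferInstance

end Finite

section Hecke

variable (N : ℕ) [NeZero N] (S : Finset ℕ)

/-- The Hecke operators on the lattice: `cohT` at the good primes, `0` at the others. -/
noncomputable def s31LatOp : Nat.Primes → Module.End ℤ (S31Lat N) := fun ℓ =>
  open Classical in
  if h : ¬ (ℓ : ℕ) ∣ N ∧ (ℓ : ℕ) ∉ (↑S : Set ℕ) then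
    (Fermat.Agent.H21.cohTL N ℓ ℓ.2 h.1 ℤ ℤ).restrict
      (fun _ hψ => Fermat.Agent.H21.cohT_mem_parabolicHoms ℓ.2 h.1 hψ)
  else 0

theorem s31LatOp_of_good {ℓ : ℕ} (hℓ : ℓ.Prime) (hℓN : ¬ ℓ ∣ N) (hℓS : ℓ ∉ (↑S : Set ℕ))
    (ψ : S31Lat N) :
    ((s31LatOp N S ⟨ℓ, hℓ⟩ ψ : S31Lat N) : Additive ↥(Gamma0 N) →+ ℤ)
      = Fermat.Agent.H21.cohT N ℓ hℓ hℓN ℤ (ψ : Additive ↥(Gamma0 N) →+ ℤ) := by
  unfold s31LatOp
  rw [dif_pos ⟨hℓN, hℓS⟩]
  rfl

theorem s31LatOp_of_not_good {ℓ : ℕ} (hℓ : ℓ.Prime)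
    (h : ¬ (¬ ℓ ∣ N ∧ ℓ ∉ (↑S : Set ℕ))) : s31LatOp N S ⟨ℓ, hℓ⟩ = 0 := by
  unfold s31LatOp
  rw [dif_neg h]

theorem s31LatOp_comm (ℓ ℓ' : Nat.Primes) :
    s31LatOp N S ℓ * s31LatOp N S ℓ' = s31LatOp N S ℓ' * s31LatOp N S ℓ := by
  obtain ⟨ℓ, hℓ⟩ := ℓ
  obtain ⟨ℓ', hℓ'⟩ := ℓ'
  by_cases h : ¬ ℓ ∣ N ∧ ℓ ∉ (↑S : Set ℕ)
  · by_cases h' : ¬ ℓ' ∣ N ∧ ℓ' ∉ (↑S : Set ℕ)
    · refine LinearMap.ext fun ψ => Subtype.ext ?_
      rw [Module.End.mul_apply, Module.End.mul_apply, s31LatOp_of_good N S hℓ h.1 h.2,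
        s31LatOp_of_good N S hℓ' h'.1 h'.2, s31LatOp_of_good N S hℓ' h'.1 h'.2,
        s31LatOp_of_good N S hℓ h.1 h.2]
      exact Fermat.Agent.H21.EsC.cohComm N ℓ ℓ' hℓ h.1 hℓ' h'.1 ψ.1 ψ.2
    · rw [s31LatOp_of_not_good N S hℓ' h', mul_zero, zero_mul]
  · rw [s31LatOp_of_not_good N S hℓ h, mul_zero, zero_mul]

/-- The action of the formal Hecke algebra on the lattice. -/
noncomputable def s31LatEval : HeckeAlg →+* Module.End ℤ (S31Lat N) :=
  s31Eval (s31LatOp N S) (s31LatOp_comm N S)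

theorem s31LatEval_heckeGen (ℓ : Nat.Primes) :
    s31LatEval N S (heckeGen ℓ) = s31LatOp N S ℓ :=
  s31Eval_X _ _ ℓ

end Hecke

end Fermat.Agent.H14
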