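/-
helper14 (P-ES / S31): the torsion of a Galois module with Hecke operators as a module over the
formal Hecke algebra (abstract form; intended `J = J₀(N)`, `T = heckeOperatorBar N`).

`M = J[m]` with the operators `T_ℓ` (restricted) at the good primes, `0` at the others.  The
operators commute on `M` automatically: by the Eichler-Shimura relation `T_ℓ = σ + ℓ σ⁻¹` on `M`
for a Frobenius element `σ` at `ℓ`, and every `T_ℓ'` commutes with the Galois action.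
-/
import Fermat.Agent.H14.S31LatSide
import Fermat.Agent.H53.FrobeniusExists

set_option autoImplicit false

namespace Fermat.Agent.H14

open CongruenceSubgroup ModularCurve ModularCurve.Period

section Torsion

variable (J : Type) [AddCommGroup J] [DistribMulAction S31GQ J]

/-- The `m`-torsion of `J` as a `ℤ`-submodule. -/
def s31JTors (m : ℕ) : Submodule ℤ J where
  carrier := {x | m • x = 0}
  add_mem' := fun {a b} ha hb => by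
    show m • (a + b) = 0
    rw [smul_add, show m • a = 0 from ha, show m • b = 0 from hb, add_zero]
  zero_mem' := smul_zero _
  smul_mem' := fun c x hx => by
    show m • (c • x) = 0
    rw [smul_comm, show m • x = 0 from hx, smul_zero]

variable {J}

omit [DistribMulAction S31GQ J] in
theorem mem_s31JTors {m : ℕ} {x : J} : x ∈ s31JTors J m ↔ m • x = 0 := Iff.rfl

/-- The Galois action on the torsion. -/
noncomputable instance s31JTorsAction (m : ℕ) : DistribMulAction S31GQ (s31JTors J m) where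
  smul σ x := ⟨σ • (x : J), by
    rw [mem_s31JTors, smul_comm, mem_s31JTors.mp x.2, smul_zero]⟩
  one_smul x := Subtype.ext (one_smul _ _)
  mul_smul σ τ x := Subtype.ext (mul_smul _ _ _)
  smul_zero σ := Subtype.ext (smul_zero _)
  smul_add σ x y := Subtype.ext (smul_add _ _ _)

theorem s31JTors_coe_smul (m : ℕ) (σ : S31GQ) (x : s31JTors J m) :
    ((σ • x : s31JTors J m) : J) = σ • (x : J) := rfl

variable (N : ℕ) (S : Finset ℕ) (T : Nat.Primes → Module.End ℤ J)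

/-- The Hecke operators on the torsion: the given operator at the good primes, `0` at the
others. -/
noncomputable def s31JOp (m : ℕ) : Nat.Primes → Module.End ℤ (s31JTors J m) :=
  fun ℓ =>
    open Classical in
    if _h : ¬ (ℓ : ℕ) ∣ N ∧ (ℓ : ℕ) ∉ (↑S : Set ℕ) then
      (T ℓ).restrict (fun x hx => by
        rw [mem_s31JTors] at hx ⊢
        rw [← map_nsmul, hx, map_zero])
    else 0

variable {N S T}

omit [DistribMulAction S31GQ J] in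
theorem s31JOp_of_good (m : ℕ) {ℓ : ℕ} (hℓ : ℓ.Prime) (hℓN : ¬ ℓ ∣ N)
    (hℓS : ℓ ∉ (↑S : Set ℕ)) (x : s31JTors J m) :
    ((s31JOp N S T m ⟨ℓ, hℓ⟩ x : s31JTors J m) : J) = T ⟨ℓ, hℓ⟩ (x : J) := by
  unfold s31JOp
  rw [dif_pos ⟨hℓN, hℓS⟩]
  rfl

omit [DistribMulAction S31GQ J] in
theorem s31JOp_of_not_good (m : ℕ) {ℓ : ℕ} (hℓ : ℓ.Prime)
    (h : ¬ (¬ ℓ ∣ N ∧ ℓ ∉ (↑S : Set ℕ))) : s31JOp N S T m ⟨ℓ, hℓ⟩ = 0 := by
  unfold s31JOp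
  rw [dif_neg h]

/-- The Hecke operators on the torsion commute with the Galois action. -/
theorem s31JOp_galois
    (hG : ∀ (ℓ : ℕ) (hℓ : ℓ.Prime), ¬ ℓ ∣ N → ∀ (σ : S31GQ) (n : ℕ), 0 < n →
      ∀ x : J, n • x = 0 → T ⟨ℓ, hℓ⟩ (σ • x) = σ • T ⟨ℓ, hℓ⟩ x)
    {m : ℕ} (hm : 0 < m) (ℓ : Nat.Primes) (σ : S31GQ) (x : s31JTors J m) :
    s31JOp N S T m ℓ (σ • x) = σ • s31JOp N S T m ℓ x := by
  obtain ⟨ℓ, hℓ⟩ := ℓ
  by_cases h : ¬ ℓ ∣ N ∧ ℓ ∉ (↑S : Set ℕ)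
  · apply Subtype.ext
    rw [s31JOp_of_good m hℓ h.1 h.2, s31JTors_coe_smul, s31JTors_coe_smul,
      s31JOp_of_good m hℓ h.1 h.2]
    exact hG ℓ hℓ h.1 σ m hm x.1 (mem_s31JTors.mp x.2)
  · rw [s31JOp_of_not_good m hℓ h, LinearMap.zero_apply, LinearMap.zero_apply, smul_zero]

/-- The Eichler-Shimura relation on the torsion. -/
theorem s31JOp_frobenius
    (hES : ∀ (ℓ : ℕ) (hℓ : ℓ.Prime), ¬ ℓ ∣ N → ∀ (n : ℕ), 0 < n → ¬ ℓ ∣ n →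
      ∀ A : ValuationSubring (AlgebraicClosure ℚ), A.LiesOverPrime ℓ →
        ∀ σ : S31GQ, A.IsFrobeniusAt σ ℓ →
          ∀ x : J, n • x = 0 → σ • σ • x - T ⟨ℓ, hℓ⟩ (σ • x) + ℓ • x = 0)
    {m : ℕ} (hm : 0 < m) {ℓ : ℕ} (hℓ : ℓ.Prime) (hℓN : ¬ ℓ ∣ N)
    (hℓS : ℓ ∉ (↑S : Set ℕ)) (hℓm : ¬ ℓ ∣ m)
    (A : ValuationSubring (AlgebraicClosure ℚ)) (hA : A.LiesOverPrime ℓ)
    (σ : S31GQ) (hσ : A.IsFrobeniusAt σ ℓ) (x : s31JTors J m) :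
    σ • σ • x - s31JOp N S T m ⟨ℓ, hℓ⟩ (σ • x) + ℓ • x = 0 := by
  apply Subtype.ext
  have h := hES ℓ hℓ hℓN m hm hℓm A hA σ hσ x.1 (mem_s31JTors.mp x.2)
  have e : ((s31JOp N S T m ⟨ℓ, hℓ⟩ (σ • x) : s31JTors J m) : J)
      = T ⟨ℓ, hℓ⟩ (σ • (x : J)) := by
    rw [s31JOp_of_good m hℓ hℓN hℓS, s31JTors_coe_smul]
  show ((σ • σ • x - s31JOp N S T m ⟨ℓ, hℓ⟩ (σ • x) + ℓ • x : s31JTors J m) : J) = 0
  rw [Submodule.coe_add, Submodule.coe_sub, e]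
  exact h

/-- On the torsion, `T_ℓ = σ + ℓ σ⁻¹` for a Frobenius element `σ` at a good prime `ℓ`. -/
theorem s31JOp_eq_of_frobenius
    (hES : ∀ (ℓ : ℕ) (hℓ : ℓ.Prime), ¬ ℓ ∣ N → ∀ (n : ℕ), 0 < n → ¬ ℓ ∣ n →
      ∀ A : ValuationSubring (AlgebraicClosure ℚ), A.LiesOverPrime ℓ →
        ∀ σ : S31GQ, A.IsFrobeniusAt σ ℓ →
          ∀ x : J, n • x = 0 → σ • σ • x - T ⟨ℓ, hℓ⟩ (σ • x) + ℓ • x = 0)
    {m : ℕ} (hm : 0 < m) {ℓ : ℕ} (hℓ : ℓ.Prime) (hℓN : ¬ ℓ ∣ N)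
    (hℓS : ℓ ∉ (↑S : Set ℕ)) (hℓm : ¬ ℓ ∣ m)
    (A : ValuationSubring (AlgebraicClosure ℚ)) (hA : A.LiesOverPrime ℓ)
    (σ : S31GQ) (hσ : A.IsFrobeniusAt σ ℓ) (y : s31JTors J m) :
    s31JOp N S T m ⟨ℓ, hℓ⟩ y = σ • y + ℓ • (σ⁻¹ • y) := by
  have h := s31JOp_frobenius hES hm hℓ hℓN hℓS hℓm A hA σ hσ (σ⁻¹ • y)
  rw [smul_inv_smul] at h
  have h2 : σ • y + ℓ • (σ⁻¹ • y) - s31JOp N S T m ⟨ℓ, hℓ⟩ y = 0 := by
    rw [← h]
    abel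
  exact (sub_eq_zero.mp h2).symm

/-- The Hecke operators on the torsion commute. -/
theorem s31JOp_comm
    (hG : ∀ (ℓ : ℕ) (hℓ : ℓ.Prime), ¬ ℓ ∣ N → ∀ (σ : S31GQ) (n : ℕ), 0 < n →
      ∀ x : J, n • x = 0 → T ⟨ℓ, hℓ⟩ (σ • x) = σ • T ⟨ℓ, hℓ⟩ x)
    (hES : ∀ (ℓ : ℕ) (hℓ : ℓ.Prime), ¬ ℓ ∣ N → ∀ (n : ℕ), 0 < n → ¬ ℓ ∣ n →
      ∀ A : ValuationSubring (AlgebraicClosure ℚ), A.LiesOverPrime ℓ →
        ∀ σ : S31GQ, A.IsFrobeniusAt σ ℓ →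
          ∀ x : J, n • x = 0 → σ • σ • x - T ⟨ℓ, hℓ⟩ (σ • x) + ℓ • x = 0)
    {m : ℕ} (hm : 0 < m)
    (hgood : ∀ ℓ : ℕ, ℓ.Prime → ℓ ∉ (↑S : Set ℕ) → ¬ ℓ ∣ m) (ℓ ℓ' : Nat.Primes) :
    s31JOp N S T m ℓ * s31JOp N S T m ℓ' = s31JOp N S T m ℓ' * s31JOp N S T m ℓ := by
  obtain ⟨ℓ', hℓ'⟩ := ℓ'
  by_cases h' : ¬ ℓ' ∣ N ∧ ℓ' ∉ (↑S : Set ℕ)
  · obtain ⟨A, σ, hA, hσ⟩ := Fermat.Agent.H53.exists_frobenius hℓ'
    have key := s31JOp_eq_of_frobenius (S := S) hES hm hℓ' h'.1 h'.2 (hgood ℓ' hℓ' h'.2) A hA σ hσ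
    refine LinearMap.ext fun y => ?_
    rw [Module.End.mul_apply, Module.End.mul_apply, key y, key (s31JOp N S T m ℓ y), map_add,
      map_nsmul, s31JOp_galois hG hm ℓ σ y, s31JOp_galois hG hm ℓ σ⁻¹ y]
  · rw [s31JOp_of_not_good m hℓ' h', mul_zero, zero_mul]

end Torsion

end Fermat.Agent.H14
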