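/-
helper14 (P-ES / S31): the faithful Hecke-Galois torsion modules from the torsion package.

Abstract form (`J` a Galois module with operators `T_ℓ`), and the modular instance
`J = J₀(N)`, `T_ℓ = heckeOperatorBar N ℓ`.
-/
import Fermat.Agent.H14.S31JTorsion
import Fermat.Agent.H14.S31Final

set_option autoImplicit false

namespace Fermat.Agent.H14

open CongruenceSubgroup ModularCurve ModularCurve.Period

section Core

variable {p N : ℕ} [NeZero N] {S : Finset ℕ}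
variable {J : Type} [AddCommGroup J] [DistribMulAction S31GQ J]
  {T : Nat.Primes → Module.End ℤ J}

/-- **CORE, abstract form.** -/
theorem heckeTorsionCore_of_abstract (hp : p.Prime) (hpS : p ∈ S)
    (hNS : ∀ q : ℕ, q.Prime → q ∣ N → q ∈ S)
    (hU : ∀ (ℓ : ℕ), ℓ.Prime → ¬ ℓ ∣ N → ∀ (m : ℕ), 0 < m → ¬ ℓ ∣ m →
      ∀ (A : ValuationSubring (AlgebraicClosure ℚ)), A.LiesOverPrime ℓ →
        ∀ σ ∈ A.inertiaSubgroupIn ℚ, ∀ x : J, m • x = 0 → σ • x = x)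
    (hG : ∀ (ℓ : ℕ) (hℓ : ℓ.Prime), ¬ ℓ ∣ N → ∀ (σ : S31GQ) (n : ℕ), 0 < n →
      ∀ x : J, n • x = 0 → T ⟨ℓ, hℓ⟩ (σ • x) = σ • T ⟨ℓ, hℓ⟩ x)
    (hES : ∀ (ℓ : ℕ) (hℓ : ℓ.Prime), ¬ ℓ ∣ N → ∀ (n : ℕ), 0 < n → ¬ ℓ ∣ n →
      ∀ A : ValuationSubring (AlgebraicClosure ℚ), A.LiesOverPrime ℓ →
        ∀ σ : S31GQ, A.IsFrobeniusAt σ ℓ →
          ∀ x : J, n • x = 0 → σ • σ • x - T ⟨ℓ, hℓ⟩ (σ • x) + ℓ • x = 0)
    (hL : ∀ m : ℕ, 0 < m → ∃ L : IntermediateField ℚ (AlgebraicClosure ℚ),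
      FiniteDimensional ℚ L ∧
        ∀ σ : S31GQ, (∀ x ∈ L, σ x = x) → ∀ x : J, m • x = 0 → σ • x = x)
    (hK : ∀ m : ℕ, 0 < m → ∃ κ : S31Lat N →+ J,
      (∀ ψ : S31Lat N, m • κ ψ = 0) ∧
      (∀ ψ : S31Lat N, κ ψ = 0 → ∃ ψ' : S31Lat N, ψ = m • ψ') ∧
      (∀ (ℓ : ℕ) (hℓ : ℓ.Prime) (hℓN : ¬ ℓ ∣ N) (ψ ψ' : S31Lat N),
        (ψ' : Additive ↥(Gamma0 N) →+ ℤ)
            = Fermat.Agent.H21.cohT N ℓ hℓ hℓN ℤ (ψ : Additive ↥(Gamma0 N) →+ ℤ) →
          κ ψ' = T ⟨ℓ, hℓ⟩ (κ ψ)))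
    (hC : CohFaithfulStatement N S) (hLat : LatticeBoundStatement) :
    HeckeTorsionCoreStatement p N S := by
  intro c
  -- the lattice bound
  have hfaithH : ∀ Q : HeckeAlg, s31LatEval N S Q = 0 →
      (MvPolynomial.aeval (s31HeckeVal N S) :
        HeckeAlg →ₐ[ℤ] CuspForm.heckeAlgebra N 2 (↑S : Set ℕ)).toRingHom Q = 0 :=
    fun Q hQ => hC (s31LatEval N S)
      (fun ℓ hℓ hℓN hℓS ψ => by
        rw [s31LatEval_heckeGen]
        exact s31LatOp_of_good N S hℓ hℓN hℓS ψ)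
      (fun ℓ hℓ h => by
        rw [s31LatEval_heckeGen]
        exact s31LatOp_of_not_good N S hℓ h) Q hQ
  obtain ⟨n, hn⟩ := hLat HeckeAlg (S31Lat N) (CuspForm.heckeAlgebra N 2 (↑S : Set ℕ))
    (s31LatEval N S) _ hfaithH p hp c
  have hm : 0 < p ^ n := pow_pos hp.pos n
  have hnotS : ∀ ℓ : ℕ, ℓ.Prime → ℓ ∉ (↑S : Set ℕ) → ¬ ℓ ∣ p ^ n := by
    intro ℓ hℓ hℓS hdvd
    have h1 : ℓ ∣ p := hℓ.dvd_of_dvd_pow hdvd
    have h2 : ℓ = p := (Nat.prime_dvd_prime_iff_eq hℓ hp).mp h1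
    exact hℓS (h2 ▸ hpS)
  have hnotN : ∀ ℓ : ℕ, ℓ.Prime → ℓ ∉ (↑S : Set ℕ) → ¬ ℓ ∣ N :=
    fun ℓ hℓ hℓS hdvd => hℓS (hNS ℓ hℓ hdvd)
  obtain ⟨L, hLfin, hLfix⟩ := hL (p ^ n) hm
  obtain ⟨κ, hκtors, hκker, hκT⟩ := hK (p ^ n) hm
  have hcomm := s31JOp_comm (N := N) (S := S) (T := T) hG hES hm hnotS
  letI modI : Module HeckeAlg (s31JTors J (p ^ n)) :=
    Module.compHom (s31JTors J (p ^ n)) (s31Eval (s31JOp N S T (p ^ n)) hcomm)
  have hsmul : ∀ (P : HeckeAlg) (x : s31JTors J (p ^ n)),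
      P • x = s31Eval (s31JOp N S T (p ^ n)) hcomm P x := fun P x => rfl
  haveI commI : SMulCommClass S31GQ HeckeAlg (s31JTors J (p ^ n)) := ⟨fun σ P x => by
    rw [hsmul, hsmul]
    exact s31Eval_intertwine _ hcomm _ hcomm
      (DistribSMul.toAddMonoidHom (s31JTors J (p ^ n)) σ)
      (fun i x => (s31JOp_galois hG hm i σ x).symm) P x⟩
  refine ⟨{
    M := s31JTors J (p ^ n)
    n := n
    pow_smul := fun m => Subtype.ext (mem_s31JTors.mp m.2)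
    L := L
    finiteDimensional := hLfin
    smul_eq_of_fix := fun σ hσ m => Subtype.ext (hLfix σ hσ m.1 (mem_s31JTors.mp m.2))
    inertia := fun q hq hqS B hB s hs m =>
      Subtype.ext (hU q hq (hnotN q hq hqS) (p ^ n) hm (hnotS q hq hqS) B hB s hs m.1
        (mem_s31JTors.mp m.2))
    frobenius := fun ℓ hℓ hℓN hℓS A hA σ hσ m => by
      have h := s31JOp_frobenius (S := S) (T := T) hES hm hℓ hℓN hℓS (hnotS ℓ hℓ hℓS) A hA σ hσ m
      have e : heckeGen ⟨ℓ, hℓ⟩ • (σ • m) = s31JOp N S T (p ^ n) ⟨ℓ, hℓ⟩ (σ • m) := by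
        rw [hsmul, heckeGen, s31Eval_X]
      rw [e]
      exact h
    faithful := fun P _ hkill => by
      apply hn P
      intro ψ
      let κ' : S31Lat N →+ s31JTors J (p ^ n) :=
        κ.codRestrict (s31JTors J (p ^ n)) (fun ψ => mem_s31JTors.mpr (hκtors ψ))
      have hint : ∀ (i : Nat.Primes) (ψ : S31Lat N),
          κ' (s31LatOp N S i ψ) = s31JOp N S T (p ^ n) i (κ' ψ) := by
        intro i ψ
        obtain ⟨ℓ, hℓ⟩ := i
        by_cases h : ¬ ℓ ∣ N ∧ ℓ ∉ (↑S : Set ℕ)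
        · apply Subtype.ext
          rw [s31JOp_of_good (p ^ n) hℓ h.1 h.2]
          exact hκT ℓ hℓ h.1 ψ _ (s31LatOp_of_good N S hℓ h.1 h.2 ψ)
        · rw [s31LatOp_of_not_good N S hℓ h, s31JOp_of_not_good (p ^ n) hℓ h,
            LinearMap.zero_apply, LinearMap.zero_apply, map_zero]
      have h1 := s31Eval_intertwine (s31LatOp N S) (s31LatOp_comm N S)
        (s31JOp N S T (p ^ n)) hcomm κ' hint P ψ
      have h2 : κ' (s31LatEval N S P ψ) = 0 := by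
        rw [show s31LatEval N S P ψ = s31Eval (s31LatOp N S) (s31LatOp_comm N S) P ψ from rfl,
          h1, ← hsmul]
        exact hkill _
      have h3 : κ (s31LatEval N S P ψ) = 0 := congrArg Subtype.val h2
      exact hκker _ h3 }⟩

end Core

section Modular

variable {p N : ℕ} [NeZero N] {S : Finset ℕ}

/-- **CORE from the torsion package of `J₀(N)`.** -/
theorem heckeTorsionCore_of_torsion (hp : p.Prime) (hpS : p ∈ S)
    (hNS : ∀ q : ℕ, q.Prime → q ∣ N → q ∈ S)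
    (hU : Fermat.Agent.H22.ES.TorsionUnramifiedStatement N)
    (hG : Fermat.Agent.H36.HeckeGaloisTorsionStatement N)
    (hES : Fermat.Agent.H36.EichlerShimuraRelStatement N)
    (hL : TorsionLevelStatement N) (hK : KummerEmbeddingStatement N)
    (hC : CohFaithfulStatement N S) (hLat : LatticeBoundStatement) :
    HeckeTorsionCoreStatement p N S :=
  heckeTorsionCore_of_abstract (J := JZero N) (T := heckeOperatorBar N) hp hpS hNS hU hG hES hL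
    hK hC hLat

variable {𝒪 : Type} [CommRing 𝒪] [IsDomain 𝒪] [IsDiscreteValuationRing 𝒪]
  [IsAdicComplete (IsLocalRing.maximalIdeal 𝒪) 𝒪]
  {θ : CuspForm.heckeAlgebra N 2 (↑S : Set ℕ) →+* IsLocalRing.ResidueField 𝒪}
  {T : Type} [CommRing T] [IsLocalRing T] [IsNoetherianRing T]
  [IsAdicComplete (IsLocalRing.maximalIdeal T) T] [Algebra 𝒪 T] [IsLocalHom (algebraMap 𝒪 T)]
  [Module.Finite 𝒪 T] [Module.Free 𝒪 T]

/-- **S31 from the torsion package**: the frozen statement S31 from Frobenius-power density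
and the torsion package of `J₀(N)`. -/
theorem s31_of_torsion (hFrob : Fermat.Agent.H72.FrobPowStatement)
    (hU : Fermat.Agent.H22.ES.TorsionUnramifiedStatement N)
    (hG : Fermat.Agent.H36.HeckeGaloisTorsionStatement N)
    (hES : Fermat.Agent.H36.EichlerShimuraRelStatement N)
    (hL : TorsionLevelStatement N) (hK : KummerEmbeddingStatement N)
    (hC : CohFaithfulStatement N S) (hLat : LatticeBoundStatement)
    (hp : p.Prime)
    (hp𝒪 : (p : 𝒪) ∈ IsLocalRing.maximalIdeal 𝒪) (hpS : p ∈ S)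
    (hNS : ∀ q : ℕ, q.Prime → q ∣ N → q ∈ S)
    (H : CuspForm.HeckeGaloisRepDatum N (↑S : Set ℕ) 𝒪 θ T)
    (q : ℕ) (hq : q.Prime) (hqS : q ∉ S) :
    H.ρ.IsUnramifiedAt q :=
  s31_of_core hFrob (heckeTorsionCore_of_torsion hp hpS hNS hU hG hES hL hK hC hLat) hp hp𝒪 hpS
    hNS H q hq hqS

end Modular

end Fermat.Agent.H14
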