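/-
helper14 (P-ES / S31): the CORE from the Jacobian side.

For a module `J` with commuting actions of `G_ℚ` and of the formal Hecke algebra (intended:
`J = ModularCurve.JZero N` with `ModularCurve.heckeModuleBar N`), the faithful Hecke-Galois torsion
modules required by `s31_of_core` are the `p ^ n`-torsion submodules of `J`, provided

* `ModularCurve.SpecializationExists N p J` (the conclusion of S37),
* `S31LevelStatement p J`   : `J[p ^ n]` has finite level, and
* `S31FaithfulStatement p N S J` : polynomials in the good Hecke variables killing `J[p ^ n]`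
  (`n` large) evaluate into `p ^ c • 𝕋`.
-/
import Fermat.Agent.H14.S31Final

set_option autoImplicit false

namespace Fermat.Agent.H14

open ModularCurve

section JSide

variable (p N : ℕ) [NeZero N] (S : Finset ℕ)
variable (J : Type) [AddCommGroup J] [Module HeckeAlg J] [DistribMulAction S31GQ J]
  [SMulCommClass S31GQ HeckeAlg J]

/-- **Finite level** of the `p`-power torsion. -/
def S31LevelStatement : Prop :=
  ∀ n : ℕ, ∃ L : IntermediateField ℚ (AlgebraicClosure ℚ), FiniteDimensional ℚ L ∧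
    ∀ σ : S31GQ, (∀ x ∈ L, σ x = x) → ∀ x : J, (p ^ n) • x = 0 → σ • x = x

/-- **Faithfulness** of the `p`-power torsion as a module over the Hecke algebra. -/
def S31FaithfulStatement : Prop :=
  ∀ c : ℕ, ∃ n : ℕ, ∀ P : HeckeAlg, P ∈ MvPolynomial.supported ℤ (s31GoodPrimes N S) →
    (∀ x : J, (p ^ n) • x = 0 → P • x = 0) →
      ∃ t : CuspForm.heckeAlgebra N 2 (↑S : Set ℕ),
        MvPolynomial.aeval (s31HeckeVal N S) P
          = (p : CuspForm.heckeAlgebra N 2 (↑S : Set ℕ)) ^ c * t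

variable {p N S J}

/-- Specialization implies that inertia acts trivially on `p`-power torsion. -/
theorem s31_unramifiedOutside_of_specialization
    (h : SpecializationExists (K := ℚ) (L := AlgebraicClosure ℚ) N p J) :
    UnramifiedOutside (K := ℚ) (L := AlgebraicClosure ℚ) N p J := by
  intro ℓ hℓ hℓNp A hA σ hσ x hx
  obtain ⟨J', _, _, sp, F, hsp, -⟩ := h ℓ hℓ hℓNp A hA
  obtain ⟨n, hn⟩ := hx
  have h1 : sp (σ • x - x) = 0 := by
    rw [map_sub, hsp.inertia_comm σ hσ x, sub_self]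
  have h2 : ∃ n : ℕ, p ^ n • (σ • x - x) = 0 :=
    ⟨n, by rw [smul_sub, smul_comm, hn, smul_zero, sub_self]⟩
  exact sub_eq_zero.mp (hsp.injective_torsion _ h2 h1)

/-- Specialization implies the Eichler-Shimura relation on `p`-power torsion. -/
theorem s31_frobeniusQuadratic_of_specialization
    (h : SpecializationExists (K := ℚ) (L := AlgebraicClosure ℚ) N p J) :
    FrobeniusQuadratic (K := ℚ) (L := AlgebraicClosure ℚ) N p J := by
  intro ℓ hℓ hℓNp A hA σ hσ x hx
  obtain ⟨J', _, _, sp, F, hsp, hrel⟩ := h ℓ hℓ hℓNp A hA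
  obtain ⟨n, hn⟩ := hx
  have h1 : sp (σ • σ • x - heckeGen ⟨ℓ, hℓ⟩ • (σ • x) + ℓ • x) = 0 := by
    rw [map_add, map_sub, hsp.frobenius_comm σ hσ, hsp.frobenius_comm σ hσ, hsp.hecke_comm,
      hsp.frobenius_comm σ hσ, map_nsmul]
    exact hrel (sp x)
  have h2 : ∃ n : ℕ, p ^ n • (σ • σ • x - heckeGen ⟨ℓ, hℓ⟩ • (σ • x) + ℓ • x) = 0 := by
    refine ⟨n, ?_⟩
    have e1 : p ^ n • (σ • σ • x) = 0 := by
      rw [smul_comm (p ^ n) σ, smul_comm (p ^ n) σ, hn, smul_zero, smul_zero]
    have e2 : p ^ n • (heckeGen ⟨ℓ, hℓ⟩ • (σ • x)) = 0 := by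
      rw [smul_comm (p ^ n) (heckeGen ⟨ℓ, hℓ⟩), smul_comm (p ^ n) σ, hn, smul_zero, smul_zero]
    have e3 : p ^ n • (ℓ • x) = 0 := by
      rw [smul_comm (p ^ n) ℓ, hn, smul_zero]
    rw [smul_add, smul_sub, e1, e2, e3, sub_zero, add_zero]
  exact hsp.injective_torsion _ h2 h1

end JSide

section Core

variable {p N : ℕ} [NeZero N] {S : Finset ℕ}
variable {J : Type} [AddCommGroup J] [Module HeckeAlg J] [DistribMulAction S31GQ J]
  [SMulCommClass S31GQ HeckeAlg J]

/-- The `p ^ n`-torsion of `J` as a Hecke submodule. -/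
def s31Torsion (J : Type) [AddCommGroup J] [Module HeckeAlg J] (p n : ℕ) : Submodule HeckeAlg J where
  carrier := {x | (p ^ n) • x = 0}
  add_mem' := fun {a b} ha hb => by
    show (p ^ n) • (a + b) = 0
    rw [smul_add, show (p ^ n) • a = 0 from ha, show (p ^ n) • b = 0 from hb, add_zero]
  zero_mem' := smul_zero _
  smul_mem' := fun c x hx => by
    show (p ^ n) • (c • x) = 0
    rw [smul_comm, show (p ^ n) • x = 0 from hx, smul_zero]

theorem mem_s31Torsion {p n : ℕ} {x : J} : x ∈ s31Torsion J p n ↔ (p ^ n) • x = 0 := Iff.rfl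

/-- The Galois action on the `p ^ n`-torsion. -/
noncomputable instance s31TorsionAction (p n : ℕ) : DistribMulAction S31GQ (s31Torsion J p n) where
  smul σ x := ⟨σ • (x : J), by
    rw [mem_s31Torsion, smul_comm, mem_s31Torsion.mp x.2, smul_zero]⟩
  one_smul x := Subtype.ext (one_smul _ _)
  mul_smul σ τ x := Subtype.ext (mul_smul _ _ _)
  smul_zero σ := Subtype.ext (smul_zero _)
  smul_add σ x y := Subtype.ext (smul_add _ _ _)

theorem s31Torsion_coe_smul (p n : ℕ) (σ : S31GQ) (x : s31Torsion J p n) :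
    ((σ • x : s31Torsion J p n) : J) = σ • (x : J) := rfl

instance s31TorsionComm (p n : ℕ) : SMulCommClass S31GQ HeckeAlg (s31Torsion J p n) where
  smul_comm σ c x := Subtype.ext (smul_comm σ c (x : J))

/-- **CORE from the Jacobian side**, from the two local clauses of the prelude
(`UnramifiedOutside`, `FrobeniusQuadratic`), finite level and faithfulness. -/
theorem heckeTorsionCore_of_clauses (hp : p.Prime) (hpS : p ∈ S)
    (hNS : ∀ q : ℕ, q.Prime → q ∣ N → q ∈ S)
    (hunr : UnramifiedOutside (K := ℚ) (L := AlgebraicClosure ℚ) N p J)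
    (hquad : FrobeniusQuadratic (K := ℚ) (L := AlgebraicClosure ℚ) N p J)
    (hlev : S31LevelStatement p J) (hfaith : S31FaithfulStatement p N S J) :
    HeckeTorsionCoreStatement p N S := by
  intro c
  obtain ⟨n, hn⟩ := hfaith c
  obtain ⟨L, hLfin, hL⟩ := hlev n
  have hgood : ∀ q : ℕ, q.Prime → q ∉ S → ¬ q ∣ N * p := by
    intro q hq hqS hdvd
    rcases (Nat.Prime.dvd_mul hq).mp hdvd with h | h
    · exact hqS (hNS q hq h)
    · have : q = p := (Nat.prime_dvd_prime_iff_eq hq hp).mp h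
      exact hqS (this ▸ hpS)
  refine ⟨{
    M := s31Torsion J p n
    n := n
    pow_smul := fun m => Subtype.ext (mem_s31Torsion.mp m.2)
    L := L
    finiteDimensional := hLfin
    smul_eq_of_fix := fun σ hσ m => Subtype.ext (hL σ hσ m.1 (mem_s31Torsion.mp m.2))
    inertia := fun q hq hqS B hB s hs m =>
      Subtype.ext (hunr q hq (hgood q hq hqS) B hB s hs m.1 ⟨n, mem_s31Torsion.mp m.2⟩)
    frobenius := fun ℓ hℓ hℓN hℓS A hA σ hσ m =>
      Subtype.ext (hquad ℓ hℓ (hgood ℓ hℓ hℓS) A hA σ hσ m.1 ⟨n, mem_s31Torsion.mp m.2⟩)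
    faithful := fun P hP hkill => hn P hP fun x hx => by
      have := congrArg Subtype.val (hkill ⟨x, mem_s31Torsion.mpr hx⟩)
      exact this }⟩

/-- **CORE from the Jacobian side**, from the conclusion of S37. -/
theorem heckeTorsionCore_of_jside (hp : p.Prime) (hpS : p ∈ S)
    (hNS : ∀ q : ℕ, q.Prime → q ∣ N → q ∈ S)
    (hsp : SpecializationExists (K := ℚ) (L := AlgebraicClosure ℚ) N p J)
    (hlev : S31LevelStatement p J) (hfaith : S31FaithfulStatement p N S J) :
    HeckeTorsionCoreStatement p N S :=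
  heckeTorsionCore_of_clauses hp hpS hNS (s31_unramifiedOutside_of_specialization hsp)
    (s31_frobeniusQuadratic_of_specialization hsp) hlev hfaith

end Core

/-- **S31 from the Jacobian side**: the frozen statement S31 for `(p, N, S)` from Frobenius-power
density, the conclusion of S37 for a module `J`, finite level and faithfulness of its `p`-power
torsion. -/
theorem s31_of_jside {p : ℕ} {N : ℕ} [NeZero N] {S : Finset ℕ}
    {𝒪 : Type} [CommRing 𝒪] [IsDomain 𝒪] [IsDiscreteValuationRing 𝒪]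
    [IsAdicComplete (IsLocalRing.maximalIdeal 𝒪) 𝒪]
    {θ : CuspForm.heckeAlgebra N 2 (↑S : Set ℕ) →+* IsLocalRing.ResidueField 𝒪}
    {T : Type} [CommRing T] [IsLocalRing T] [IsNoetherianRing T]
    [IsAdicComplete (IsLocalRing.maximalIdeal T) T] [Algebra 𝒪 T] [IsLocalHom (algebraMap 𝒪 T)]
    [Module.Finite 𝒪 T] [Module.Free 𝒪 T]
    (J : Type) [AddCommGroup J] [Module HeckeAlg J] [DistribMulAction S31GQ J]
    [SMulCommClass S31GQ HeckeAlg J]
    (hFrob : Fermat.Agent.H72.FrobPowStatement)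
    (hsp : SpecializationExists (K := ℚ) (L := AlgebraicClosure ℚ) N p J)
    (hlev : S31LevelStatement p J) (hfaith : S31FaithfulStatement p N S J)
    (hp : p.Prime)
    (hp𝒪 : (p : 𝒪) ∈ IsLocalRing.maximalIdeal 𝒪) (hpS : p ∈ S)
    (hNS : ∀ q : ℕ, q.Prime → q ∣ N → q ∈ S)
    (H : CuspForm.HeckeGaloisRepDatum N (↑S : Set ℕ) 𝒪 θ T)
    (q : ℕ) (hq : q.Prime) (hqS : q ∉ S) :
    H.ρ.IsUnramifiedAt q :=
  s31_of_core hFrob (heckeTorsionCore_of_jside hp hpS hNS hsp hlev hfaith) hp hp𝒪 hpS hNS H q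
    hq hqS

/-- **S31 from the Jacobian side**, local-clause form. -/
theorem s31_of_clauses {p : ℕ} {N : ℕ} [NeZero N] {S : Finset ℕ}
    {𝒪 : Type} [CommRing 𝒪] [IsDomain 𝒪] [IsDiscreteValuationRing 𝒪]
    [IsAdicComplete (IsLocalRing.maximalIdeal 𝒪) 𝒪]
    {θ : CuspForm.heckeAlgebra N 2 (↑S : Set ℕ) →+* IsLocalRing.ResidueField 𝒪}
    {T : Type} [CommRing T] [IsLocalRing T] [IsNoetherianRing T]
    [IsAdicComplete (IsLocalRing.maximalIdeal T) T] [Algebra 𝒪 T] [IsLocalHom (algebraMap 𝒪 T)]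
    [Module.Finite 𝒪 T] [Module.Free 𝒪 T]
    (J : Type) [AddCommGroup J] [Module HeckeAlg J] [DistribMulAction S31GQ J]
    [SMulCommClass S31GQ HeckeAlg J]
    (hFrob : Fermat.Agent.H72.FrobPowStatement)
    (hunr : UnramifiedOutside (K := ℚ) (L := AlgebraicClosure ℚ) N p J)
    (hquad : FrobeniusQuadratic (K := ℚ) (L := AlgebraicClosure ℚ) N p J)
    (hlev : S31LevelStatement p J) (hfaith : S31FaithfulStatement p N S J)
    (hp : p.Prime)
    (hp𝒪 : (p : 𝒪) ∈ IsLocalRing.maximalIdeal 𝒪) (hpS : p ∈ S)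
    (hNS : ∀ q : ℕ, q.Prime → q ∣ N → q ∈ S)
    (H : CuspForm.HeckeGaloisRepDatum N (↑S : Set ℕ) 𝒪 θ T)
    (q : ℕ) (hq : q.Prime) (hqS : q ∉ S) :
    H.ρ.IsUnramifiedAt q :=
  s31_of_core hFrob (heckeTorsionCore_of_clauses hp hpS hNS hunr hquad hlev hfaith) hp hp𝒪 hpS
    hNS H q hq hqS

end Fermat.Agent.H14
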